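import Fermat.Agent.LL.Mazur.HeckeNorm
import Fermat.Agent.S24
import Fermat.Agent.MF.PlaceOrbits.Corollaries
import Fermat.Agent.MF.Degeneracy

/-!
# The two ends of an isogeny at an unramified elliptic point of order three

A place of level `M l` over `j = 0` unramified over the `j`-line has the same restriction along
both degeneracy maps.
-/

set_option autoImplicit false
set_option linter.style.haveILetI false

noncomputable section

open AlgebraicCurve ModularCurve UpperHalfPlane CongruenceSubgroup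
open Fermat.Agent.MF Fermat.Agent.MF.PlaceOrbits
open scoped MatrixGroups

namespace Fermat.Agent.Extra.EllThree

local notation "Qb" => AlgebraicClosure ℚ

/-- A root of `a² - a + 1` modulo a prime gives an element of that norm. -/
theorem exists_eisenstein_norm {l : ℕ} (hl : l.Prime) {a : ℤ} (ha : (l : ℤ) ∣ a ^ 2 - a + 1) :
    ∃ u v : ℤ, u ^ 2 + u * v + v ^ 2 = l ∧ (l : ℤ) ∣ u * a + v := by
  haveI := Fact.mk hl
  set s := Nat.sqrt l with hs
  obtain ⟨x, y, hne, he⟩ := Fintype.exists_ne_map_eq_of_card_lt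
    (fun x : Fin (s + 1) × Fin (s + 1) => ((((x.1 : ℕ) : ℤ) * a + (x.2 : ℕ) : ℤ) : ZMod l))
    (by rw [ZMod.card, Fintype.card_prod, Fintype.card_fin]; exact Nat.lt_succ_sqrt l)
  set u : ℤ := ((x.1 : ℕ) : ℤ) - (y.1 : ℕ) with hu
  set v : ℤ := ((x.2 : ℕ) : ℤ) - (y.2 : ℕ) with hv
  have hdvd : (l : ℤ) ∣ u * a + v := by
    have h := (ZMod.intCast_eq_intCast_iff_dvd_sub _ _ l).mp he.symm
    convert h using 1
    rw [hu, hv]
    ring
  have hne' : u ≠ 0 ∨ v ≠ 0 := by
    by_contra hc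
    simp only [not_or, not_not] at hc
    exact hne (Prod.ext (Fin.ext (by omega)) (Fin.ext (by omega)))
  have hsl : (s : ℤ) * s < l := by
    exact_mod_cast (Nat.sqrt_le l).lt_of_ne fun h => hl.prime.not_isSquare ⟨s, h.symm⟩
  have hub : u ^ 2 ≤ s * s := by
    have := x.1.isLt; have := y.1.isLt
    nlinarith [mul_nonneg (show (0 : ℤ) ≤ s - u by omega) (show (0 : ℤ) ≤ s + u by omega)]
  have hvb : v ^ 2 ≤ s * s := by
    have := x.2.isLt; have := y.2.isLt
    nlinarith [mul_nonneg (show (0 : ℤ) ≤ s - v by omega) (show (0 : ℤ) ≤ s + v by omega)]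
  have hpos : 0 < u ^ 2 + u * v + v ^ 2 := by
    rcases hne' with h | h <;>
      nlinarith [sq_nonneg (u + v), sq_nonneg u, sq_nonneg v, sq_pos_of_ne_zero h]
  have hlt : u ^ 2 + u * v + v ^ 2 < 3 * l := by nlinarith [sq_nonneg (u - v)]
  obtain ⟨k, hk⟩ : (l : ℤ) ∣ u ^ 2 + u * v + v ^ 2 := by
    rw [show u ^ 2 + u * v + v ^ 2 = u ^ 2 * (a ^ 2 - a + 1) + (u * a + v) * (u + v - u * a) by ring]
    exact dvd_add (ha.mul_left _) (hdvd.mul_right _)
  have hk1 : 0 < k := pos_of_mul_pos_right (hk ▸ hpos) (Int.natCast_nonneg l)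
  have hk3 : k < 3 := by nlinarith
  obtain rfl | rfl : k = 1 ∨ k = 2 := by omega
  · exact ⟨u, v, by rw [hk, mul_one], hdvd⟩
  exfalso
  have h2 : ((u : ZMod 2)) ^ 2 + (u : ZMod 2) * v + (v : ZMod 2) ^ 2 = 0 := by
    have h := congrArg (Int.cast : ℤ → ZMod 2) hk
    push_cast at h
    rw [h, show (2 : ZMod 2) = 0 from rfl, mul_zero]
  have key2 : ∀ p : ZMod 2, p ^ 2 - p + 1 ≠ 0 := by decide
  have key : ∀ p q : ZMod 2, p ^ 2 + p * q + q ^ 2 = 0 → p = 0 ∧ q = 0 := by decide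
  obtain ⟨hu2, hv2⟩ := key _ _ h2
  obtain ⟨u', hu'⟩ := (ZMod.intCast_zmod_eq_zero_iff_dvd u 2).mp hu2
  obtain ⟨v', hv'⟩ := (ZMod.intCast_zmod_eq_zero_iff_dvd v 2).mp hv2
  have hl2 : l = 2 := by
    refine ((hl.eq_one_or_self_of_dvd 2 ?_).resolve_left (by norm_num)).symm
    refine Int.natCast_dvd_natCast.mp ⟨u' ^ 2 + u' * v' + v' ^ 2, ?_⟩
    rw [hu', hv'] at hk
    push_cast at hk ⊢
    linarith
  subst hl2
  have h2a := (ZMod.intCast_zmod_eq_zero_iff_dvd (a ^ 2 - a + 1) 2).mpr ha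
  push_cast at h2a
  exact key2 _ h2a

/-- An elliptic point of order three of level `M l` and its multiple by `l` are equivalent at
level `M`. -/
theorem exists_smul_eq_scaleH {M l : ℕ} [NeZero l] (hl : l.Prime) {k : SL(2, ℤ)}
    (hk : k ∈ Gamma0 (M * l)) (htr : k 0 0 + k 1 1 = 1) {σ : ℍ} (hfix : k • σ = σ) :
    ∃ γ ∈ Gamma0 M, γ • σ = scaleH l σ := by
  obtain ⟨c', hc'⟩ := (ZMod.intCast_zmod_eq_zero_iff_dvd _ _).mp (Gamma0_mem.mp hk)
  push_cast at hc'
  have hdet : k 0 0 * k 1 1 - k 0 1 * k 1 0 = 1 := (Matrix.det_fin_two _).symm.trans k.2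
  obtain ⟨u, v, huv, w, hw⟩ := exists_eisenstein_norm hl (a := k 0 0)
    ⟨-(k 0 1 * M * c'), by linear_combination -hdet + k 0 0 * htr - k 0 1 * hc'⟩
  have hl0 : (l : ℤ) ≠ 0 := Int.natCast_ne_zero.mpr hl.ne_zero
  let γ : SL(2, ℤ) := ⟨!![u * k 1 1 + v, -(u * k 0 1); -(u * M * c'), w], by
    rw [Matrix.det_fin_two_of]
    apply mul_left_cancel₀ hl0
    linear_combination u ^ 2 * hdet + (u * v) * htr + huv + u ^ 2 * k 0 1 * hc' -
      (u * k 1 1 + v) * hw⟩
  refine ⟨γ, Gamma0_mem.mpr (by show ((-(u * M * c') : ℤ) : ZMod M) = 0; simp), ?_⟩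
  have hnum := congrArg (fun z : ℍ => (z : ℂ)) hfix
  simp only [UpperHalfPlane.coe_specialLinearGroup_apply, algebraMap_int_eq, eq_intCast,
    Complex.ofReal_intCast] at hnum
  have hden : ((k 1 0 : ℤ) : ℂ) * σ + (k 1 1 : ℤ) ≠ 0 := fun h => by
    rw [h, div_zero] at hnum
    exact σ.ne_zero hnum.symm
  rw [div_eq_iff hden] at hnum
  have hc : ((k 1 0 : ℤ) : ℂ) = (M : ℂ) * l * c' := by exact_mod_cast congrArg (Int.cast (R := ℂ)) hc'
  have hwC : (u : ℂ) * (k 0 0 : ℤ) + v = l * w := by exact_mod_cast congrArg (Int.cast (R := ℂ)) hw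
  have hγdet : ((u * k 1 1 + v : ℤ) : ℂ) * (w : ℂ) -
      ((-(u * k 0 1) : ℤ) : ℂ) * ((-(u * M * c') : ℤ) : ℂ) = 1 := by
    have h : γ 0 0 * γ 1 1 - γ 0 1 * γ 1 0 = 1 := (Matrix.det_fin_two _).symm.trans γ.2
    exact_mod_cast h
  ext1
  rw [coe_scaleH, UpperHalfPlane.coe_specialLinearGroup_apply]
  simp only [γ, algebraMap_int_eq, eq_intCast, Complex.ofReal_intCast, Matrix.of_apply,
    Matrix.cons_val', Matrix.cons_val_zero, Matrix.cons_val_one, Matrix.cons_val_fin_one]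
  have heq : ((u * k 1 1 + v : ℤ) : ℂ) * σ + ((-(u * k 0 1) : ℤ) : ℂ) =
      (l : ℂ) * σ * (((-(u * M * c') : ℤ) : ℂ) * σ + (w : ℂ)) := by
    push_cast
    linear_combination (σ : ℂ) * hwC - (u : ℂ) * (σ : ℂ) ^ 2 * hc - (u : ℂ) * hnum
  rw [div_eq_iff, heq]
  intro h0
  rw [h0, mul_zero] at heq
  have : (1 : ℂ) = 0 := by
    linear_combination -hγdet + ((u * k 1 1 + v : ℤ) : ℂ) * h0 -
      ((-(u * M * c') : ℤ) : ℂ) * heq
  exact one_ne_zero this

theorem ptOrd_comp_scaleH (d : ℕ) [NeZero d] (f : ℍ → ℂ) (σ : ℍ) :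
    ptOrd (f ∘ scaleH d) σ = ptOrd f (scaleH d σ) := by
  have hdet : 0 < (ModularForm.heckeDiagMatrix d).val.det := by
    rw [ModularForm.val_heckeDiagMatrix (NeZero.ne d), Matrix.det_fin_two_of]
    simp [Nat.pos_of_ne_zero (NeZero.ne d)]
  unfold ptOrd
  exact congrArg WithTop.untop₀ (meromorphicOrderAt_comp_smul (f := f) (τ := σ) hdet)

/-- Integrality at a point of a function of level `M` read at level `N` through `τ ↦ d τ`. -/
theorem ptVal_qExpand_le_one_iff {M N d : ℕ} [NeZero M] [NeZero N] [NeZero d] (hd : M * d ∣ N)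
    {x : MFField M} {x' : MFField N}
    (h : (x' : LaurentSeries ℂ) = qExpand ℂ d (x : LaurentSeries ℂ)) (σ : ℍ) :
    ptVal N σ x' ≤ 1 ↔ ptVal M (scaleH d σ) x ≤ 1 := by
  rcases eq_or_ne x 0 with rfl | hx
  · obtain rfl : x' = 0 := Subtype.ext (h.trans (map_zero _))
    simp
  obtain ⟨k, f, g, hf, hg, he⟩ := FormOrder.exists_rep hx
  have hne : ∀ {f : MForm M k}, f ≠ 0 → rescale d hd f ≠ 0 := fun {f} hf h0 => by
    have h1 := qL_rescale d hd f
    rw [h0, FunLike.coe_zero, qL_zero, eq_comm, map_eq_zero] at h1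
    exact hf ((qL_mform_eq_zero_iff f).mp h1)
  have he' : (x' : LaurentSeries ℂ) = qL (rescale d hd f) / qL (rescale d hd g) := by
    rw [h, he, map_div₀, qL_rescale, qL_rescale]
  unfold ptVal
  rw [(ptOrder N σ).val_le_one_iff (hne hf) (hne hg) he',
    (ptOrder M (scaleH d σ)).val_le_one_iff hf hg he]
  show ptOrd _ σ ≤ ptOrd _ σ ↔ _
  rw [coe_rescale, coe_rescale, ptOrd_comp_scaleH, ptOrd_comp_scaleH]
  rfl

/-- Where the pullback of `j` has a simple zero both degeneracy maps give the same point. -/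
theorem mem_alpha_iff_mem_beta {M l : ℕ} [NeZero M] [NeZero l] (hl : l.Prime)
    (y : Place Qb (modularFunctionFieldBar (M * l)))
    (hy : y.ord (heckeAlphaBar Qb M l (MF.Coeff.jElem Qb M)) = 1)
    (x : modularFunctionFieldBar M) :
    heckeAlphaBar Qb M l x ∈ y.toValuationSubring ↔
      heckeBetaBar Qb M l x ∈ y.toValuationSubring := by
  let D := S24.jDataBar (M * l)
  let D₁ := S24.jDataBar M
  have hj : D.j = heckeAlphaBar Qb M l (MF.Coeff.jElem Qb M) :=
    Subtype.ext (by rw [coe_heckeAlphaBar, MF.Coeff.coe_jElem]; rfl)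
  obtain ⟨π, hπ⟩ := D.exists_pointEquiv (a := 0) (τ := rhoPt)
    (kleinJ_rhoPt.trans (map_zero _).symm) isStabGen_rhoPt
  have hy' : y.ord (D.j - algebraMap Qb (modularFunctionFieldBar (M * l)) 0) = 1 := by
    rw [map_zero, sub_zero, hj, hy]
  obtain ⟨o, ho⟩ := π.surjective ⟨y, hy'.symm ▸ one_pos⟩
  induction o using Quotient.inductionOn' with
  | h q =>
    obtain ⟨hm, he, -⟩ := hπ q
    rw [ho] at hm he
    replace he : (1 : ℤ) = orbitSize (ModularGroup.S * ModularGroup.T) q := hy'.symm.trans he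
    have hfix := pow_orbitSize_smul (ModularGroup.S * ModularGroup.T) q
    rw [show orbitSize (ModularGroup.S * ModularGroup.T) q = 1 by exact_mod_cast he.symm,
      pow_one] at hfix
    set g : SL(2, ℤ) := q.out
    set σ := g⁻¹ • rhoPt
    set k : SL(2, ℤ) := g⁻¹ * (ModularGroup.S * ModularGroup.T) * g
    have hk : k ∈ Gamma0 (M * l) := by
      rw [← QuotientGroup.out_eq' q] at hfix
      have h1 := QuotientGroup.eq.mp (show (QuotientGroup.mk g : Cosets.X0 (M * l)) =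
        QuotientGroup.mk (ModularGroup.S * ModularGroup.T * g) from hfix.symm)
      simpa only [k, mul_assoc] using h1
    have htr : k 0 0 + k 1 1 = 1 := by
      rw [← Matrix.trace_fin_two (k : Matrix (Fin 2) (Fin 2) ℤ)]
      show Matrix.trace ((g⁻¹ : SL(2, ℤ)).1 *
        (ModularGroup.S * ModularGroup.T : SL(2, ℤ)).1 * g.1) = 1
      rw [Matrix.trace_mul_cycle, ← Matrix.SpecialLinearGroup.coe_mul g g⁻¹, mul_inv_cancel,
        Matrix.SpecialLinearGroup.coe_one, one_mul]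
      simp [ModularGroup.coe_S, ModularGroup.coe_T, Matrix.trace_fin_two]
    have hkσ : k • σ = σ := by
      rw [← SemigroupAction.mul_smul]
      simp only [k, mul_inv_cancel_right]
      rw [SemigroupAction.mul_smul, ST_smul_rhoPt]
    have hval : ∀ (d : ℕ) [NeZero d], M * d ∣ M * l →
        ∀ (x' : modularFunctionFieldBar (M * l)),
          (x' : LaurentSeries Qb) = qExpand Qb d (x : LaurentSeries Qb) →
          (x' ∈ y.toValuationSubring ↔ ptVal M (scaleH d σ) (D₁.emb x) ≤ 1) := by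
      intro d _ hd x' hx'
      rw [hm]
      exact ptVal_qExpand_le_one_iff hd (by
        rw [JData.coe_emb, JData.coe_emb, hx', coeffMap_qExpand]) σ
    obtain ⟨γ, hγ, hγσ⟩ := exists_smul_eq_scaleH hl hk htr hkσ
    rw [hval 1 (by rw [mul_one]; exact dvd_mul_right M l) _ (by rw [coe_heckeAlphaBar, qExpand_one_apply]),
      hval l dvd_rfl _ (coe_heckeBetaBar M l x), scaleH_one, ← hγσ, ptVal_smul hγ]

end Fermat.Agent.Extra.EllThree
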