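import Fermat.Agent.Extra.LLp.Elliptic
import Fermat.Agent.LLp.Degen
import Fermat.Agent.RED.RamBound.Main
import Fermat.Agent.RED.X0Red
import Fermat.Agent.FF.PushPull

/-!
# The Hecke correspondence at an elliptic point of order three
-/

set_option autoImplicit false
set_option linter.style.haveILetI false

noncomputable section

open AlgebraicCurve ModularCurve

namespace Fermat.Agent.Extra.EllThree

local notation "Qb" => AlgebraicClosure ℚ

theorem mem_restrictAlong_iff {K F F' : Type*} [Field K] [Field F] [Field F'] [Algebra K F]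
    [Algebra K F'] (φ : F →ₐ[K] F') (hφ : φ.toRingHom.IsIntegral) (w : Place K F') (x : F) :
    x ∈ (w.restrictAlong φ hφ).toValuationSubring ↔ φ x ∈ w.toValuationSubring :=
  Iff.rfl

/-- A correspondence at a place where every point of the fibre has ramification index divisible
by `3` or the same image under both maps. -/
theorem three_dvd_correspondence_single_sub {K F F' : Type*} [Field K] [Field F] [Field F']
    [Algebra K F] [Algebra K F'] [IsAlgClosed K] [IsCurveOver K F']
    (φ ψ : F →ₐ[K] F') (hφ : φ.toRingHom.IsIntegral) (hψ : ψ.toRingHom.IsIntegral)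
    (hFI : FundamentalIdentityAlong K φ hφ) {r : ℕ} (hr : finrankAlong K φ = r) {P : Place K F}
    (hdP : P.deg = 1) (hcase : ∀ y : Place K F', y.restrictAlong φ hφ = P →
      3 ∣ y.ramificationIndexAlong φ ∨ y.restrictAlong ψ hψ = P) (v : Place K F) :
    (3 : ℤ) ∣ (Divisor.correspondence φ ψ hφ hψ (Finsupp.single P 1) -
      Finsupp.single P (r : ℤ) : Divisor K F) v := by
  classical
  set s := Place.fiberAlong φ hφ P
  have hT : Divisor.correspondence φ ψ hφ hψ (Finsupp.single P 1) = ∑ y ∈ s,
      Finsupp.single (y.restrictAlong ψ hψ) (y.ramificationIndexAlong φ : ℤ) := by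
    rw [Divisor.correspondence_apply, Divisor.pullbackAlong_single, map_sum]
    refine Finset.sum_congr rfl fun y _ => ?_
    rw [Divisor.pushforwardAlong_single, FF.inertiaDegAlong_eq_one, one_mul, Nat.cast_one, mul_one]
  have hsum : ∑ y ∈ s, (y.ramificationIndexAlong φ : ℤ) = r := by
    have h := Divisor.degree_pullbackAlong φ hφ hFI (Finsupp.single P 1)
    rw [Divisor.pullbackAlong_single, map_sum] at h
    simpa [hdP, hr, IsCurveOver.deg_eq_one_of_isAlgClosed] using h
  have hterm : ∀ y ∈ s, (3 : ℤ) ∣
      Finsupp.single (y.restrictAlong ψ hψ) (y.ramificationIndexAlong φ : ℤ) v -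
      Finsupp.single P (y.ramificationIndexAlong φ : ℤ) v := by
    intro y hy
    rcases hcase y (Place.mem_fiberAlong.mp hy) with h | h
    · have h' : (3 : ℤ) ∣ y.ramificationIndexAlong φ := by exact_mod_cast h
      simp only [Finsupp.single_apply]
      split_ifs <;> simp [h']
    · rw [h, sub_self]
      exact dvd_zero 3
  have key := Finset.dvd_sum hterm
  rwa [Finset.sum_sub_distrib, ← Finset.sum_apply', ← Finset.sum_apply', ← hT,
    ← Finsupp.single_finsetSum, hsum, ← Finsupp.sub_apply] at key

theorem heckeAlphaBar_jPlace (M l : ℕ) [NeZero M] [NeZero l] :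
    heckeAlphaBar Qb M l (RED.RamBound.jPlace M) = RED.RamBound.jPlace (M * l) :=
  Subtype.ext (by rw [coe_heckeAlphaBar]; rfl)

/-- Along the fibre of `β` over such a point, the ramification index is `1` or `3`, and in the
first case the restriction along `α` is the point itself. -/
theorem ramificationIndexAlong_beta_cases {M l : ℕ} [NeZero M] [NeZero l] (hl : l.Prime)
    (hlM : ¬ l ∣ M) (hα : (heckeAlphaBar Qb M l).toRingHom.IsIntegral)
    (hβ : (heckeBetaBar Qb M l).toRingHom.IsIntegral)
    (y : Place Qb (modularFunctionFieldBar (M * l)))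
    (hy : (y.restrictAlong (heckeBetaBar Qb M l) hβ).ord (RED.RamBound.jPlace M) = 1) :
    y.ramificationIndexAlong (heckeBetaBar Qb M l) = 3 ∨
      (y.ramificationIndexAlong (heckeBetaBar Qb M l) = 1 ∧
        y.restrictAlong (heckeAlphaBar Qb M l) hα = y.restrictAlong (heckeBetaBar Qb M l) hβ) := by
  obtain ⟨w, hw⟩ := LLp.exists_isSwap M l hl hlM
  have he : w.toAlgHom.toRingHom.IsIntegral :=
    RingHom.isIntegral_of_surjective _ w.surjective
  set e := y.ramificationIndexAlong (heckeBetaBar Qb M l) with he'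
  have hepos : 0 < e := by
    letI := algebraAlong (heckeBetaBar Qb M l)
    haveI := isScalarTower_along (heckeBetaBar Qb M l)
    haveI := isIntegral_along (heckeBetaBar Qb M l) hβ
    exact y.ramificationIndex_pos (F := modularFunctionFieldBar M)
  have hord : y.ord (heckeBetaBar Qb M l (RED.RamBound.jPlace M)) = e := by
    rw [y.ord_restrictAlong _ hβ, hy, mul_one]
  set y' := y.restrictAlong w.toAlgHom he
  have h1 : y'.ord (heckeAlphaBar Qb M l (RED.RamBound.jPlace M)) = e := by
    rw [FF.ord_restrictAlong_algEquiv, hw.map_alpha]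
    exact hord
  have hdvd : (e : ℤ) ∣ (RED.RamBound.ellRam 0 : ℤ) := by
    have := RED.RamBound.ord_jPlace_sub_dvd (M * l) y' 0
    rw [map_zero, sub_zero, ← heckeAlphaBar_jPlace, h1] at this
    exact this (by exact_mod_cast hepos)
  rw [RED.RamBound.ellRam_zero] at hdvd
  rcases (Nat.dvd_prime Nat.prime_three).mp (Int.natCast_dvd_natCast.mp hdvd) with h | h
  · refine Or.inr ⟨h, Place.ext (SetLike.ext fun x => ?_)⟩
    have h2 := mem_alpha_iff_mem_beta hl y' (by
      rw [← RED.jPlace_eq_jElem, h1, h]; rfl) x
    rw [mem_restrictAlong_iff, mem_restrictAlong_iff] at h2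
    rw [mem_restrictAlong_iff, mem_restrictAlong_iff]
    rw [show w.toAlgHom (heckeAlphaBar Qb M l x) = w (heckeAlphaBar Qb M l x) from rfl,
      show w.toAlgHom (heckeBetaBar Qb M l x) = w (heckeBetaBar Qb M l x) from rfl,
      hw.map_alpha, hw.map_beta] at h2
    exact h2.symm
  · exact Or.inl h

/-- For `l ≡ 1 (mod 3)` the image of such a point under `T_l` is twice itself modulo `3`. -/
theorem three_dvd_heckeDiv_single_sub {M l : ℕ} [NeZero M] [NeZero l] (hl : l.Prime)
    (hlM : ¬ l ∣ M) (hl3 : l % 3 = 1) (P : Place Qb (modularFunctionFieldBar M))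
    (hP : P.ord (RED.RamBound.jPlace M) = 1) (v : Place Qb (modularFunctionFieldBar M)) :
    (3 : ℤ) ∣ (LL.Mazur.heckeDiv M l (Finsupp.single P 1) - Finsupp.single P 2 :
      Divisor Qb (modularFunctionFieldBar M)) v := by
  classical
  haveI := HK.Corr.hasPrincipalDivisors_level Qb (M * l)
  haveI : FF.IsFunctionField Qb (modularFunctionFieldBar (M * l)) :=
    MF.Coeff.isFunctionField_laurentBaseChange Qb (M * l)
  haveI : IsCurveOver Qb (modularFunctionFieldBar (M * l)) := FF.instIsCurveOver
  haveI : FF.IsFunctionField Qb (modularFunctionFieldBar M) :=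
    MF.Coeff.isFunctionField_laurentBaseChange Qb M
  haveI : IsCurveOver Qb (modularFunctionFieldBar M) := FF.instIsCurveOver
  have hD := HK.Corr.degreeInput Qb
  have hα : (heckeAlphaBar Qb M l).toRingHom.IsIntegral := HK.Corr.heckeAlphaBarIntegral_of M l hD
  have hβ : (heckeBetaBar Qb M l).toRingHom.IsIntegral := HK.Corr.heckeBetaBarIntegral_of M l hD
  have key := three_dvd_correspondence_single_sub (heckeBetaBar Qb M l) (heckeAlphaBar Qb M l)
    hβ hα (HK.Corr.fundamentalIdentityAlong_heckeBetaBar M l hD)
    (HK.Corr.finrankAlong_heckeBetaBar_eq_succ (L := Qb) M l hl hlM) (P := P)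
    (IsCurveOver.deg_eq_one_of_isAlgClosed P)
    (fun y hy => (ramificationIndexAlong_beta_cases hl hlM hα hβ y (by rw [hy]; exact hP)).imp
      (fun h => by rw [h]) fun h => h.2.trans hy) v
  change (3 : ℤ) ∣ (Divisor.correspondence (heckeBetaBar Qb M l) (heckeAlphaBar Qb M l) hβ hα
    (Finsupp.single P 1) - Finsupp.single P 2 : Divisor Qb (modularFunctionFieldBar M)) v
  rw [Finsupp.sub_apply] at key ⊢
  simp only [Finsupp.single_apply] at key ⊢
  split_ifs at key ⊢ <;> omega

end Fermat.Agent.Extra.EllThree
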