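import Fermat.Agent.Carayol.EtaleLevel
import Fermat.Agent.Carayol.EtaleHauptmodul
import Fermat.Agent.RED.Hauptmodul.Level4
import Fermat.Agent.RED.X0Extension
import Fermat.Agent.FF.DifferentPlaceExtend

/-!
# The obstruction to residual divisibility by three

If all orders at level `4 M` of a function of level `M` are divisible by `3`, so are its orders at
level `M`, except where `j` has a simple zero.
-/

set_option autoImplicit false
set_option linter.style.haveILetI false

noncomputable section

open AlgebraicCurve ModularCurve IsLocalRing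

namespace Fermat.Agent.Extra.EllThree

local notation "Qb" => AlgebraicClosure ℚ

section Local

open Polynomial

variable {K E : Type*} [Field K] [Field E] [Algebra K E] {z : Place K E} {t : E} {τ : K}

theorem eq_zero_of_algebraMap_mem_ordGE_one {a : K}
    (h : algebraMap K E a ∈ FF.ordGE z 1) : a = 0 := by
  by_contra ha
  have h' := FF.le_ord_of_mem_ordGE z h ((_root_.map_ne_zero _).mpr ha)
  rw [FF.ord_algebraMap] at h'
  omega

/-- If `d(t) g = p(t)ⁿ` at a simple zero `τ` of `p`, not one of `d`, then `g` has order `n`. -/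
theorem ord_eq_of_simple_root (h1 : z.ord (t - algebraMap K E τ) = 1)
    {d p : K[X]} (hd : d.eval τ ≠ 0) (hp : p.eval τ = 0) (hp' : p.derivative.eval τ ≠ 0)
    {g : E} (hg : g ≠ 0) {n : ℕ} (h : aeval t d * g = aeval t p ^ n) : z.ord g = n := by
  have ht : t - algebraMap K E τ ∈ FF.ordGE z 1 := FF.mem_ordGE_of_le z h1.ge
  have hne : t - algebraMap K E τ ≠ 0 := fun h0 => by rw [h0, z.ord_zero] at h1; omega
  obtain ⟨q, rfl⟩ := dvd_iff_isRoot.mpr (show p.IsRoot τ from hp)
  have hq : q.eval τ ≠ 0 := by simpa [derivative_mul] using hp'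
  obtain ⟨hq0, hq1⟩ := Carayol.Etale.ord_aeval_eq_zero z ht hq
  obtain ⟨hd0, hd1⟩ := Carayol.Etale.ord_aeval_eq_zero z ht hd
  have h' := congrArg z.ord h
  rw [z.ord_mul hd0 hg, hd1, FF.ord_pow, map_mul, map_sub, aeval_X, aeval_C,
    z.ord_mul hne hq0, h1, hq1] at h'
  linarith

/-- If the parameter `t` of `X₀(4)` is unramified at `z` and the order of `j - c` at `z` is
divisible by `3`, then `c = 0` and this order is `3`. -/
theorem eq_zero_and_ord_eq_three (h2 : (2 : K) ≠ 0) (h3 : (3 : K) ≠ 0) (hdeg : z.deg = 1)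
    {j : E} (hrel : t ^ 4 * (t + 16) * j = (t ^ 2 + 256 * t + 4096) ^ 3)
    (hsimple : ∀ τ : K, τ ≠ 0 → τ + 16 ≠ 0 → 0 < z.ord (t - algebraMap K E τ) →
      z.ord (t - algebraMap K E τ) = 1)
    {c : K} (hc : 0 < z.ord (j - algebraMap K E c))
    (hdvd : (3 : ℤ) ∣ z.ord (j - algebraMap K E c)) :
    c = 0 ∧ z.ord (j - algebraMap K E c) = 3 := by
  have hjc : j - algebraMap K E c ≠ 0 := fun h => by rw [h, z.ord_zero] at hc; omega
  have hjc1 : j - algebraMap K E c ∈ FF.ordGE z 1 := FF.mem_ordGE_of_le z (by omega)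
  have hj : j ∈ FF.ordGE z 0 := by
    have := add_mem (FF.ordGE_antitone z zero_le_one hjc1) (FF.algebraMap_mem_ordGE_zero z c)
    rwa [sub_add_cancel] at this
  -- the parameter is regular
  have ht : t ∈ z.toValuationSubring := by
    rw [FF.mem_iff_ord_nonneg]
    by_contra hneg
    have ht0 : t ≠ 0 := fun h => hneg (by rw [h, z.ord_zero])
    have hu1 : t⁻¹ ∈ FF.ordGE z 1 := FF.mem_ordGE_of_le z (by rw [z.ord_inv]; omega)
    have hu : t⁻¹ - algebraMap K E 0 ∈ FF.ordGE z 1 := by rwa [map_zero, sub_zero]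
    set P : K[X] := (4096 * X ^ 2 + 256 * X + 1) ^ 3 with hP
    have hPu : aeval t⁻¹ P = t⁻¹ * (aeval t⁻¹ (16 * X + 1 : K[X]) * j) := by
      simp only [hP, map_pow, map_add, map_mul, map_one, map_ofNat, aeval_X]
      have h6 : (t ^ 2 * (4096 * t⁻¹ ^ 2 + 256 * t⁻¹ + 1)) ^ 3 =
          t ^ 6 * (t⁻¹ * ((16 * t⁻¹ + 1) * j)) := by
        rw [show t ^ 2 * (4096 * t⁻¹ ^ 2 + 256 * t⁻¹ + 1) = t ^ 2 + 256 * t + 4096 by
          linear_combination (4096 * (t * t⁻¹ + 1) + 256 * t) * mul_inv_cancel₀ ht0, ← hrel]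
        linear_combination -(t ^ 4 * (16 * (t * t⁻¹ + 1) + t) * j) * mul_inv_cancel₀ ht0
      rw [mul_pow, ← pow_mul] at h6
      exact mul_left_cancel₀ (pow_ne_zero 6 ht0) h6
    have hmem : aeval t⁻¹ P ∈ FF.ordGE z 1 := by
      rw [hPu]
      have h' := FF.mul_mem_ordGE z hu1 (FF.mul_mem_ordGE z (FF.aeval_mem_ordGE_zero z
        (FF.ordGE_antitone z zero_le_one hu1) (16 * X + 1 : K[X])) hj)
      rwa [add_zero, add_zero] at h'
    have := sub_mem hmem (Carayol.Etale.aeval_sub_mem_ordGE z zero_le_one hu P)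
    rw [sub_sub_cancel] at this
    have h0 := eq_zero_of_algebraMap_mem_ordGE_one this
    simp [hP] at h0
  obtain ⟨τ, hτ⟩ : ∃ τ : K, t - algebraMap K E τ ∈ FF.ordGE z 1 :=
    ⟨RED.pval z t,
      (FF.mem_ordGE z).mpr ((RED.pval_sub_algebraMap hdeg ht).imp_right fun h => by omega)⟩
  set d : K[X] := X ^ 4 * (X + 16) with hd
  set p : K[X] := X ^ 2 + 256 * X + 4096 with hp
  set s : K[X] := (X + 32) * (X ^ 2 - 512 * X - 8192) with hs
  set G : K[X] := p ^ 3 - C c * d with hG
  have hGrel : aeval t d * (j - algebraMap K E c) = aeval t G := by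
    simp only [hG, hd, hp, map_sub, map_pow, map_mul, map_add, map_ofNat, aeval_X, aeval_C]
    linear_combination hrel
  have hG0 : G.eval τ = 0 := by
    refine eq_zero_of_algebraMap_mem_ordGE_one (E := E) (z := z) ?_
    have h1 : aeval t G ∈ FF.ordGE z 1 := by
      rw [← hGrel]
      have h' := FF.mul_mem_ordGE z (FF.aeval_mem_ordGE_zero z ((FF.mem_ordGE_zero z).mpr ht) d)
        hjc1
      rwa [zero_add] at h'
    have := sub_mem h1 (Carayol.Etale.aeval_sub_mem_ordGE z zero_le_one hτ G)
    rwa [sub_sub_cancel] at this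
  have hGτ : (τ ^ 2 + 256 * τ + 4096) ^ 3 = c * (τ ^ 4 * (τ + 16)) := by
    have := hG0
    simp [hG, hd, hp] at this
    linear_combination this
  have hτ0 : τ ≠ 0 := fun h => pow_ne_zero 36 h2 (by
    rw [h] at hGτ; linear_combination hGτ)
  have hτ16 : τ + 16 ≠ 0 := fun h => pow_ne_zero 24 h2 (by
    rw [eq_neg_of_add_eq_zero_left h] at hGτ; linear_combination hGτ)
  have hd0 : d.eval τ ≠ 0 := by simpa [hd] using And.intro hτ0 hτ16
  have hne : t - algebraMap K E τ ≠ 0 := by
    intro h
    have := hGrel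
    simp only [sub_eq_zero.mp h, aeval_algebraMap_apply, coe_aeval_eq_eval, hG0, map_zero] at this
    exact mul_ne_zero ((_root_.map_ne_zero _).mpr hd0) hjc this
  have h1 : z.ord (t - algebraMap K E τ) = 1 :=
    hsimple τ hτ0 hτ16 (by have := FF.le_ord_of_mem_ordGE z hτ hne; omega)
  rcases eq_or_ne c 0 with rfl | hc0
  · refine ⟨rfl, ord_eq_of_simple_root (n := 3) h1 hd0 (p := p) ?_ ?_ hjc ?_⟩
    · simpa [hp] using hGτ
    · intro h
      have hpτ : τ ^ 2 + 256 * τ + 4096 = 0 := by simpa using hGτ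
      have h128 : τ + 128 = 0 := (mul_eq_zero.mp (show (2 : K) * (τ + 128) = 0 by
        simp [hp] at h; linear_combination h)).resolve_left h2
      exact mul_ne_zero (pow_ne_zero 12 h2) h3
        (show (2 : K) ^ 12 * 3 = 0 by linear_combination -hpτ + (τ + 128) * h128)
    · rw [hGrel, hG, map_zero, zero_mul, sub_zero, map_pow]
  exfalso
  rcases eq_or_ne c 1728 with rfl | hc1
  · have hsτ : (τ + 32) * (τ ^ 2 - 512 * τ - 8192) = 0 :=
      eq_zero_of_pow_eq_zero (n := 2) (by linear_combination hGτ)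
    have h := ord_eq_of_simple_root (n := 2) h1 hd0 (p := s) (by simpa [hs] using hsτ) ?_ hjc ?_
    · rw [h] at hdvd; norm_num at hdvd
    · intro h
      simp [hs, derivative_pow] at h
      rcases mul_eq_zero.mp hsτ with h32 | hquad
      · exact mul_ne_zero (pow_ne_zero 10 h2) (pow_ne_zero 2 h3)
          (show (2 : K) ^ 10 * 3 ^ 2 = 0 by linear_combination h - (τ - 544 + 2 * τ - 512) * h32)
      · have h256 : τ - 256 = 0 := by
          rcases mul_eq_zero.mp (show (2 : K) * (τ + 32) * (τ - 256) = 0 by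
            linear_combination h - hquad) with h' | h'
          · rcases mul_eq_zero.mp h' with h' | h'
            · exact absurd h' h2
            · exact absurd (show (2 : K) ^ 10 * 3 ^ 2 = 0 by
                linear_combination hquad - (τ - 544) * h')
                (mul_ne_zero (pow_ne_zero 10 h2) (pow_ne_zero 2 h3))
          · exact h'
        exact mul_ne_zero (pow_ne_zero 13 h2) (pow_ne_zero 2 h3)
          (show (2 : K) ^ 13 * 3 ^ 2 = 0 by linear_combination (τ - 256) * h256 - hquad)
    · rw [hGrel]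
      simp only [hG, hd, hp, hs, map_sub, map_pow, map_mul, map_add, map_ofNat, aeval_X]
      ring
  · have h := ord_eq_of_simple_root (n := 1) h1 hd0 (p := G) hG0 ?_ hjc (by rw [hGrel, pow_one])
    · rw [h] at hdvd; norm_num at hdvd
    · intro h
      simp [hG, hd, hp, derivative_pow] at h
      have h' : c * (τ ^ 3 * ((τ + 32) * (τ ^ 2 - 512 * τ - 8192))) = 0 := by
        linear_combination (τ ^ 2 + 256 * τ + 4096) * h - 3 * (2 * τ + 256) * hGτ
      have hsτ := ((mul_eq_zero.mp h').resolve_left hc0 |> mul_eq_zero.mp).resolve_left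
        (pow_ne_zero 3 hτ0)
      exact mul_ne_zero (sub_ne_zero.mpr hc1) (mul_ne_zero (pow_ne_zero 4 hτ0) hτ16)
        (show (c - 1728) * (τ ^ 4 * (τ + 16)) = 0 by
          linear_combination ((τ + 32) * (τ ^ 2 - 512 * τ - 8192)) * hsτ - hGτ)

end Local

variable {A : ValuationSubring Qb}

section Upstairs

variable {k : Type} [Field k] {M N : ℕ} [NeZero M] [NeZero N]

set_option synthInstance.maxHeartbeats 100000 in
set_option maxHeartbeats 1000000 in
/-- Every place of `k(X₀(N))` extends to `k(X₀(M))` for `N ∣ M`, `M` invertible in `k`. -/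
theorem exists_place_over_inclusion (hNM : N ∣ M) (hM : (M : k) ≠ 0)
    (x : Place k (modularFunctionFieldFullC k N)) :
    ∃ (z : Place k (modularFunctionFieldFullC k M)) (e : ℕ), 0 < e ∧
      ∀ f, z.ord (IntermediateField.inclusion (RED.fullC_le_of_dvd k hNM) f) = e * x.ord f := by
  haveI := RED.isFunctionField_special (k := k) M hM
  let ι := IntermediateField.inclusion (RED.fullC_le_of_dvd k hNM)
  letI : Algebra (modularFunctionFieldFullC k N) (modularFunctionFieldFullC k M) :=
    ι.toRingHom.toAlgebra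
  haveI : IsScalarTower k (modularFunctionFieldFullC k N) (modularFunctionFieldFullC k M) :=
    IsScalarTower.of_algebraMap_eq fun a => (ι.commutes a).symm
  let L := IntermediateField.adjoin k {RED.jSpecial (k := k) M}
  have hL : ∀ y : L,
      ((y : modularFunctionFieldFullC k M) : LaurentSeries k) ∈
        modularFunctionFieldFullC k N := by
    intro y
    have h : IntermediateField.lift L ≤ modularFunctionFieldFullC k N := by
      rw [IntermediateField.lift_adjoin_simple]
      exact IntermediateField.adjoin_simple_le_iff.mpr (jqModC_mem_full _ N)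
    exact h ((IntermediateField.mem_lift _).mpr y.2)
  letI : Algebra L (modularFunctionFieldFullC k N) :=
    (RingHom.codRestrict ((modularFunctionFieldFullC k M).val.toRingHom.comp L.val.toRingHom)
      (modularFunctionFieldFullC k N) hL).toAlgebra
  haveI : IsScalarTower L (modularFunctionFieldFullC k N) (modularFunctionFieldFullC k M) :=
    IsScalarTower.of_algebraMap_eq fun _ => Subtype.ext rfl
  haveI : FiniteDimensional L (modularFunctionFieldFullC k M) :=
    FF.finiteDimensional_adjoin (RED.transcendental_jSpecial M)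
  haveI : FiniteDimensional (modularFunctionFieldFullC k N) (modularFunctionFieldFullC k M) :=
    Module.Finite.of_restrictScalars_finite L _ _
  haveI : Algebra.IsSeparable L (modularFunctionFieldFullC k M) := RED.isSeparable_special M hM
  haveI : Algebra.IsSeparable (modularFunctionFieldFullC k N) (modularFunctionFieldFullC k M) :=
    Algebra.isSeparable_tower_top_of_isSeparable L _ _
  obtain ⟨z, hz⟩ := FF.Diff.exists_place_over (F' := modularFunctionFieldFullC k M) x
  exact ⟨z, z.ramificationIndex (F := modularFunctionFieldFullC k N), z.ramificationIndex_pos,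
    fun f => (z.ord_restrict f).trans (by rw [hz])⟩

omit [NeZero N]

/-- The Hauptmodul of level `4` in `k(X₀(M))`, `4 ∣ M`, with its relation to `j`. -/
theorem exists_t4_special (π : A →+* k) (hπ : Function.Surjective π) (hM : (M : k) ≠ 0)
    (h4 : 4 ∣ M) :
    ∃ tb : modularFunctionFieldFullC k M,
      (tb : LaurentSeries k) = coeffMap (Int.castRingHom k) RED.Hauptmodul.t4Z ∧
      tb ^ 4 * (tb + 16) * RED.jSpecial M = (tb ^ 2 + 256 * tb + 4096) ^ 3 := by
  obtain ⟨tb, htb⟩ : ∃ tb : modularFunctionFieldFullC k M,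
      (tb : LaurentSeries k) = coeffMap (Int.castRingHom k) RED.Hauptmodul.t4Z := by
    have hy : coeffMap A.subtype (coeffMap (Int.castRingHom A) RED.Hauptmodul.t4Z) ∈
        modularFunctionFieldBar M := by
      have h := coeffEmb_mem_laurentBaseChange Qb
        (full_degeneracy_le h4 RED.Hauptmodul.t4_mem)
      rw [RED.Hauptmodul.t4, coeffEmb, coeffMap_coeffMap] at h
      rw [coeffMap_coeffMap]
      rwa [RingHom.ext_int (A.subtype.comp (Int.castRingHom A))
        ((algebraMap ℚ Qb).comp (Int.castRingHom ℚ))]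
    obtain ⟨hw, hred⟩ :=
      RED.LaurentPair.exists_mem_of_coeffMap_mem (RED.good_x0 A π M hπ hM) hy
    refine ⟨_, hred.trans ?_⟩
    rw [coeffMap_coeffMap, RingHom.ext_int (RingHom.comp _ _) (Int.castRingHom _)]
  refine ⟨tb, htb, ?_⟩
  have h := Carayol.Etale.rel_of_rat (c := 0) (n := 3) (tZ := RED.Hauptmodul.t4Z)
    (den := Polynomial.X ^ 4 * (Polynomial.X + 16))
    (num := Polynomial.X ^ 2 + 256 * Polynomial.X + 4096)
    (by simpa [RED.Hauptmodul.t4] using RED.Hauptmodul.t4_mul_jq) k
  apply (modularFunctionFieldFullC k M).val.injective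
  simp only [map_mul, map_pow, map_add, map_ofNat]
  simpa [htb] using h

/-- `ord_jSpecial_eq_one_of_upstairs` over any algebraically closed residue field. -/
theorem ord_jSpecial_eq_one_aux [IsAlgClosed k] (π : A →+* k) (hπ : Function.Surjective π)
    (h2 : (2 : k) ≠ 0) (h3 : (3 : k) ≠ 0) (hM : ((4 * M : ℕ) : k) ≠ 0)
    (φ : modularFunctionFieldFullC k M)
    (hφ : ∀ z : Place k (modularFunctionFieldFullC k (4 * M)),
      (3 : ℤ) ∣ z.ord (IntermediateField.inclusion
        (RED.fullC_le_of_dvd k (dvd_mul_left M 4)) φ))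
    (x : Place k (modularFunctionFieldFullC k M))
    (hx : RED.jSpecial (k := k) M ∈ x.toValuationSubring)
    (hx3 : ¬ (3 : ℤ) ∣ x.ord φ) :
    x.ord (RED.jSpecial (k := k) M) = 1 := by
  haveI := RED.isFunctionField_special (k := k) (4 * M) hM
  obtain ⟨z, e, he0, hord⟩ := exists_place_over_inclusion (dvd_mul_left M 4) hM x
  have he : (3 : ℤ) ∣ e := (Int.prime_three.dvd_or_dvd (hord φ ▸ hφ z)).resolve_right hx3
  -- the value of `j`
  have hj : RED.jSpecial (4 * M) = IntermediateField.inclusion
      (RED.fullC_le_of_dvd k (dvd_mul_left M 4)) (RED.jSpecial M) := Subtype.ext rfl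
  have hjz : RED.jSpecial (k := k) (4 * M) ∈ z.toValuationSubring := by
    rw [FF.mem_iff_ord_nonneg, hj, hord]
    exact mul_nonneg (Nat.cast_nonneg e) ((FF.mem_iff_ord_nonneg x).mp hx)
  have hdeg : z.deg = 1 := RED.Normal.deg_eq_one' z
  have hjc : RED.jSpecial (4 * M) - algebraMap k (modularFunctionFieldFullC k (4 * M))
      (RED.pval z (RED.jSpecial (4 * M))) ≠ 0 := fun h =>
    RED.transcendental_jSpecial (k := k) (4 * M)
      (by rw [sub_eq_zero.mp h]; exact isAlgebraic_algebraMap _)
  have hc := (RED.pval_sub_algebraMap hdeg hjz).resolve_left hjc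
  obtain ⟨tb, htb, hrel⟩ := exists_t4_special π hπ hM (dvd_mul_right 4 M)
  obtain ⟨hc0, hord3⟩ := eq_zero_and_ord_eq_three h2 h3 hdeg hrel
    (fun τ h0 h16 hv => Carayol.Etale.ord_t4_sub_eq_one π hπ hM (dvd_mul_right 4 M) tb htb h0 h16
      z hv) hc (by
      rw [hj, ← AlgHom.commutes (IntermediateField.inclusion
        (RED.fullC_le_of_dvd k (dvd_mul_left M 4))) (RED.pval z _), ← map_sub, hord]
      exact he.mul_right _)
  rw [hc0, map_zero, sub_zero, hj, hord] at hord3
  obtain ⟨m, hm⟩ := he
  have hm1 : x.ord (RED.jSpecial (k := k) M) * m = 1 := by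
    rw [hm] at hord3; linarith
  exact Int.eq_one_of_mul_eq_one_right ((FF.mem_iff_ord_nonneg x).mp hx) hm1

end Upstairs

set_option synthInstance.maxHeartbeats 100000 in
/-- Where `j` is finite and the divisibility fails, `j` has a simple zero. -/
theorem ord_jSpecial_eq_one_of_upstairs {r M : ℕ} [NeZero M] (hr : r.Prime) (hr3 : 3 < r)
    (hrM : ¬ r ∣ 4 * M) (hA : A.LiesOverPrime r)
    (φ : modularFunctionFieldFullC (ResidueField A) M)
    (hφ : ∀ z : Place (ResidueField A) (modularFunctionFieldFullC (ResidueField A) (4 * M)),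
      (3 : ℤ) ∣ z.ord (IntermediateField.inclusion
        (RED.fullC_le_of_dvd (ResidueField A) (dvd_mul_left M 4)) φ))
    (x : Place (ResidueField A) (modularFunctionFieldFullC (ResidueField A) M))
    (hx : RED.jSpecial (k := ResidueField A) M ∈ x.toValuationSubring)
    (hx3 : ¬ (3 : ℤ) ∣ x.ord φ) :
    x.ord (RED.jSpecial (k := ResidueField A) M) = 1 := by
  haveI := Galois.place_charP_residueField hA hr
  haveI := Galois.place_residueField_isAlgClosed A
  have hsmall : ∀ n : ℕ, 0 < n → n ≤ 3 → (n : ResidueField A) ≠ 0 := fun n h0 hn h =>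
    absurd (Nat.le_of_dvd h0 ((CharP.cast_eq_zero_iff _ r n).mp h)) (by omega)
  exact ord_jSpecial_eq_one_aux (residue A) residue_surjective
    (by exact_mod_cast hsmall 2 two_pos (by omega)) (by exact_mod_cast hsmall 3 three_pos le_rfl)
    (RED.natCast_residue_ne_zero hr hrM hA) φ hφ x hx hx3

end Fermat.Agent.Extra.EllThree
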