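import Fermat.Agent.LL.Residual.AuxPrime

/-!
# A split prime at `p = 3` outside the eigensystem of `1 + ω`

If every element of determinant one acted with trace `2`, these elements would be unipotent with a
common fixed line, which the whole Galois group would preserve.
-/

set_option autoImplicit false

noncomputable section

open Module WeierstrassCurve
open Fermat.Agent.Galois (Qbar GalQ)

namespace Fermat.Agent.Extra.EllThree

open Polynomial in
/-- An endomorphism of a plane with trace two and determinant one is unipotent. -/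
theorem sub_one_sq_eq_zero {K V : Type*} [Field K] [AddCommGroup V] [Module K V]
    [Module.Finite K V] (h : finrank K V = 2) {f : Module.End K V}
    (htr : LinearMap.trace K V f = 2) (hdet : LinearMap.det f = 1) : (f - 1) * (f - 1) = 0 := by
  have hC := LinearMap.aeval_self_charpoly f
  rw [CondLevel.charpoly_eq_of_finrank_two h, htr, hdet, map_add, map_sub, map_mul, map_pow,
    aeval_X, aeval_C, aeval_C, map_one, map_ofNat, sq, two_mul] at hC
  rw [sub_mul, mul_sub, one_mul, mul_one, ← hC]
  abel

/-- An irreducible plane representation with an odd involution and determinants `±1` has an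
element of determinant one whose trace is not two. -/
theorem exists_det_one_trace_ne_two {G K V : Type*} [Group G] [Field K] [AddCommGroup V]
    [Module K V] [Module.Finite K V] (hV : finrank K V = 2)
    (ρ : G →* Module.End K V) (hdet : ∀ g, LinearMap.det (ρ g) = 1 ∨ LinearMap.det (ρ g) = -1)
    {c : G} (hc : c * c = 1) (hdc : LinearMap.det (ρ c) = -1)
    (hirr : ∀ N : Submodule K V, (∀ g, ∀ x ∈ N, ρ g x ∈ N) → N = ⊥ ∨ N = ⊤) :
    ∃ g, LinearMap.det (ρ g) = 1 ∧ LinearMap.trace K V (ρ g) ≠ 2 := by
  by_contra hcon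
  push Not at hcon
  have hline : ∀ v : V, v ≠ 0 → (∀ g, ρ g v ∈ K ∙ v) → False := fun v hv hst => by
    rcases hirr (K ∙ v) (fun g x hx => by
      obtain ⟨a, rfl⟩ := Submodule.mem_span_singleton.mp hx
      rw [map_smul]
      exact Submodule.smul_mem _ a (hst g)) with h | h
    · exact hv (Submodule.span_singleton_eq_bot.mp h)
    · have h1 := finrank_span_singleton (K := K) hv
      rw [h, finrank_top, hV] at h1
      exact absurd h1 (by norm_num)
  by_cases htriv : ∀ g, LinearMap.det (ρ g) = 1 → ρ g = 1
  · -- the image is `{1, ρ c}`: an eigenvector of the involution spans a stable line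
    have hrho : ∀ g, ρ g = 1 ∨ ρ g = ρ c := by
      intro g
      refine (hdet g).imp (htriv g) fun hg => ?_
      have h := htriv (g * c) (by rw [map_mul, map_mul, hg, hdc, neg_mul_neg, one_mul])
      rw [← mul_one g, ← hc, ← mul_assoc, map_mul, h, one_mul]
    have : Nontrivial V := Module.nontrivial_of_finrank_eq_succ hV
    obtain ⟨x, hx⟩ := exists_ne (0 : V)
    have hcc : ρ c (ρ c x) = x := by rw [← Module.End.mul_apply, ← map_mul, hc, map_one]; rfl
    obtain ⟨v, a, hv, hcv⟩ : ∃ (v : V) (a : K), v ≠ 0 ∧ ρ c v = a • v := by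
      by_cases hm : x + ρ c x = 0
      · exact ⟨x, -1, hx, by rw [neg_one_smul]; exact eq_neg_of_add_eq_zero_right hm⟩
      · exact ⟨_, 1, hm, by rw [map_add, hcc, one_smul, add_comm]⟩
    refine hline v hv fun g => ?_
    rcases hrho g with h | h <;> rw [h]
    · exact Submodule.mem_span_singleton_self v
    · exact hcv ▸ Submodule.smul_mem _ a (Submodule.mem_span_singleton_self v)
  · push Not at htriv
    obtain ⟨g₀, hd₀, hne⟩ := htriv
    set A := ρ g₀ - 1
    have hA2 : A * A = 0 := sub_one_sq_eq_zero hV (hcon g₀ hd₀) hd₀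
    obtain ⟨x, hx⟩ : ∃ x, A x ≠ 0 := by
      by_contra! h
      exact hne (sub_eq_zero.mp (LinearMap.ext h))
    set v := A x with hv
    have hAv : A v = 0 := by rw [hv, ← Module.End.mul_apply, hA2]; rfl
    have hker : ∀ y, A y = 0 → y ∈ K ∙ v := by
      intro y hy
      have h : K ∙ v = LinearMap.ker A := by
        refine Submodule.eq_of_le_of_finrank_le ?_ ?_
        · rw [Submodule.span_singleton_le_iff_mem]; exact hAv
        · rw [finrank_span_singleton hx]
          have hlt : LinearMap.ker A ≠ ⊤ := fun h => hx (LinearMap.mem_ker.mp (h ▸ Submodule.mem_top))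
          have := Submodule.finrank_lt hlt
          omega
      rw [h]; exact hy
    -- every element of determinant one fixes `v`
    have hfix : ∀ g, LinearMap.det (ρ g) = 1 → ρ g v = v := by
      intro g hg
      set B := ρ g - 1 with hB
      have hB2 : B * B = 0 := sub_one_sq_eq_zero hV (hcon g hg) hg
      have htr : LinearMap.trace K V (A * B) = 0 := by
        have h := hcon (g₀ * g) (by rw [map_mul, map_mul, hd₀, hg, one_mul])
        rw [map_mul] at h
        simp only [A, hB, sub_mul, mul_sub, one_mul, mul_one, map_sub, LinearMap.trace_one, hV, h,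
          hcon g₀ hd₀, hcon g hg]
        norm_num
      have hsq : (A * B) * (A * B) = 0 := by
        have hd : LinearMap.det A = 0 := by
          have h := congrArg LinearMap.det hA2
          rw [map_mul, LinearMap.det_zero, hV, zero_pow two_ne_zero] at h
          simpa using h
        rw [LL.mul_self_of_trace_eq_zero hV _ htr, map_mul, hd, zero_mul, neg_zero, zero_smul]
      obtain ⟨t, ht⟩ := Submodule.mem_span_singleton.mp
        (hker (A (B v)) (by rw [← Module.End.mul_apply, hA2]; rfl))
      have ht0 : t = 0 := by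
        have h1 : (A * B) ((A * B) v) = (t * t) • v := by
          rw [Module.End.mul_apply A B v, ← ht, map_smul, Module.End.mul_apply, ← ht, smul_smul]
        rw [← Module.End.mul_apply, hsq] at h1
        exact mul_self_eq_zero.mp ((smul_eq_zero.mp h1.symm).resolve_right hx)
      obtain ⟨b, hb⟩ := Submodule.mem_span_singleton.mp
        (hker (B v) (by rw [← ht, ht0, zero_smul]))
      have hb0 : b = 0 := by
        have h1 : B (B v) = (b * b) • v := by rw [← hb, map_smul, ← hb, smul_smul]
        rw [← Module.End.mul_apply, hB2] at h1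
        exact mul_self_eq_zero.mp ((smul_eq_zero.mp h1.symm).resolve_right hx)
      rw [hb0, zero_smul, hB, LinearMap.sub_apply, Module.End.one_apply] at hb
      exact sub_eq_zero.mp hb.symm
    refine hline v hx fun σ => hker _ ?_
    have hconj : LinearMap.det (ρ (σ⁻¹ * g₀ * σ)) = 1 := by
      rw [map_mul, map_mul, map_mul, map_mul, hd₀, mul_one, ← map_mul, ← map_mul,
        inv_mul_cancel, map_one, map_one]
    have h := congrArg (ρ σ) (hfix _ hconj)
    rw [← Module.End.mul_apply, ← map_mul, show σ * (σ⁻¹ * g₀ * σ) = g₀ * σ by group, map_mul,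
      Module.End.mul_apply] at h
    rw [LinearMap.sub_apply, Module.End.one_apply, h, sub_self]

open CondLevel (Tors rhoTors cycChar)

/-- If `E[3]` is irreducible some good prime `ℓ ≡ 1 (mod 3)` has `a_ℓ ≢ 2 (mod 3)`. -/
theorem exists_split_prime (W : WeierstrassCurve ℤ) (hΔ : W.Δ ≠ 0)
    (hirr : W.ModRepIsIrreducible 3) (S : Finset ℕ) :
    ∃ ℓ : ℕ, ℓ.Prime ∧ ℓ ∉ S ∧ ℓ % 3 = 1 ∧ W.IsGoodPrimeFor ℓ ∧
      (W.apOfModel ℓ : ZMod 3) ≠ 2 := by
  have := CondLevel.moduleFinite_tors W hΔ 3
  have hV := CondLevel.finrank_tors W hΔ 3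
  have hval : ∀ x : ZMod 3, x ≠ 0 → x = 1 ∨ x = -1 := by decide
  obtain ⟨g, hd, ht⟩ := exists_det_one_trace_ne_two hV (rhoTors W 3)
    (fun σ => hval _ (by rw [CondLevel.det_rhoTors W hΔ 3]; exact R59.cycChar_ne_zero 3 σ))
    complexConjugation_mul_self
    (CondLevel.det_rhoTors_involution W hΔ 3 (by norm_num) complexConjugation_mul_self
      CondLevel.complexConjugation_ne_one)
    fun N hN => hirr.2 N fun σ x hx => hN σ x hx
  obtain ⟨L, hL, hLfix⟩ := CondLevel.rhoTors_finiteLevel W hΔ (n := 3) (by norm_num)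
  have := hL
  have := Density.normal_qbar
  set M := IntermediateField.normalClosure ℚ L (AlgebraicClosure ℚ)
  have : Normal ℚ M := normalClosure.normal ℚ _ _
  obtain ⟨ℓ, hℓ, hℓS, A, hA, φ, hφ, hgen⟩ :=
    Density.exists_frobenius_zpowers_restrictNormal M g (insert 3 (S ∪ W.Δ.natAbs.primeFactors))
  rw [Finset.mem_insert, Finset.mem_union, not_or, not_or] at hℓS
  have hgood : W.IsGoodPrimeFor ℓ := fun h => hℓS.2.2
    (Nat.mem_primeFactors.mpr ⟨hℓ, Int.natCast_dvd.mp h, Int.natAbs_ne_zero.mpr hΔ⟩)
  obtain ⟨htr, hdet⟩ := CondLevel.frobenius_trace_det W hΔ hℓ hℓS.1 hgood hA hφ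
  have hpow : ∀ a b : GalQ, a.restrictNormal M ∈ Subgroup.zpowers (b.restrictNormal M) →
      ∃ n : ℕ, rhoTors W 3 a = rhoTors W 3 b ^ n := by
    intro a b hab
    obtain ⟨n, hn⟩ := mem_powers_iff_mem_zpowers.mpr hab
    refine ⟨n, by
      rw [← map_pow]
      refine CondLevel.eq_of_finiteLevel hLfix fun x hx => ?_
      have hn' : (b ^ n).restrictNormal M = a.restrictNormal M := by
        change AlgEquiv.restrictNormalHom M (b ^ n) = _
        rw [map_pow]; exact hn
      have h1 := AlgEquiv.restrictNormal_commutes (b ^ n) M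
        ⟨x, IntermediateField.le_normalClosure L hx⟩
      rw [hn', AlgEquiv.restrictNormal_commutes] at h1
      exact h1⟩
  obtain ⟨j, hj⟩ := hpow φ g (hgen ▸ Subgroup.mem_zpowers _)
  obtain ⟨k, hk⟩ := hpow g φ (hgen ▸ Subgroup.mem_zpowers _)
  have hd1 : LinearMap.det (rhoTors W 3 φ) = 1 := by rw [hj, map_pow, hd, one_pow]
  refine ⟨ℓ, hℓ, hℓS.2.1, ?_, hgood, fun h => ht ?_⟩
  · have h := congrArg ZMod.val (hdet.symm.trans hd1)
    rw [ZMod.val_natCast] at h
    exact h.trans (by decide)
  -- powers of a unipotent have trace two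
  have hu := sub_one_sq_eq_zero hV (htr.trans h) hd1
  have hpu : ∀ n : ℕ, rhoTors W 3 φ ^ n = 1 + (n : ZMod 3) • (rhoTors W 3 φ - 1) := by
    intro n
    induction n with
    | zero => simp
    | succ n ih =>
      have hs : (rhoTors W 3 φ - 1) * rhoTors W 3 φ = rhoTors W 3 φ - 1 := by
        rw [← sub_eq_zero, show (rhoTors W 3 φ - 1) * rhoTors W 3 φ - (rhoTors W 3 φ - 1) =
          (rhoTors W 3 φ - 1) * (rhoTors W 3 φ - 1) by rw [mul_sub, mul_one], hu]
      rw [pow_succ, ih, add_mul, one_mul, smul_mul_assoc, hs, Nat.cast_succ, add_smul, one_smul]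
      abel
  rw [hk, hpu, map_add, map_smul, map_sub, LinearMap.trace_one, hV, htr, h]
  norm_num

end Fermat.Agent.Extra.EllThree
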