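import Fermat.Agent.Extra.LLp.Principle
import Fermat.Agent.Extra.LLp.SplitPrime
import Fermat.Agent.LLp.Frey
import Fermat.Agent.LL.Mazur.Lower

/-!
# Level lowering at `p` for the peu ramifiée shape, every level

At `p = 3` an auxiliary prime `r ≡ 2 (mod 3)` enters the level and is removed again: otherwise
Frobenius at `r` would be a scalar of determinant `2`.
-/

set_option autoImplicit false

noncomputable section

open ModularCurve WeierstrassCurve
open Fermat.Agent.CondLevel (Tors rhoTors cycChar)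
open Fermat.Agent.TraceFn (AwayHecke awayIncl awayEval jHecke)

namespace Fermat.Agent.Extra.EllThree

local notation "Qb" => AlgebraicClosure ℚ
local notation "GQ" => AlgebraicClosure ℚ ≃ₐ[ℚ] AlgebraicClosure ℚ

/-- An element commuting with an irreducible image is a scalar, so its determinant is a square. -/
theorem exists_mul_self_eq_cycChar (W : WeierstrassCurve ℤ) (hΔ : W.Δ ≠ 0) {p : ℕ}
    [Fact p.Prime] (hp2 : p ≠ 2) (hirr : W.ModRepIsIrreducible p) {σ : GQ}
    (hσ : ∀ τ, rhoTors W p σ * rhoTors W p τ = rhoTors W p τ * rhoTors W p σ) :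
    ∃ s : ZMod p, s * s = cycChar p σ := by
  have := CondLevel.moduleFinite_tors W hΔ p
  let b := Module.finBasisOfFinrankEq (ZMod p) (Tors W p) (CondLevel.finrank_tors W hΔ p)
  set N := LinearMap.toMatrix b b (rhoTors W p σ) with hN
  have hc : N ∈ Submonoid.center (Matrix (Fin 2) (Fin 2) (ZMod p)) := by
    rw [Submonoid.mem_center_iff]
    intro X
    have hX : X ∈ Submodule.span (ZMod p)
        (Set.range fun g => LinearMap.toMatrix b b (rhoTors W p g)) := by
      rw [LL.Mazur.span_rhoTors W hΔ p hp2 hirr b]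
      exact Submodule.mem_top
    induction hX using Submodule.span_induction with
    | mem y hy =>
      obtain ⟨g, rfl⟩ := hy
      rw [hN, ← LinearMap.toMatrix_mul, ← LinearMap.toMatrix_mul, hσ]
    | zero => simp
    | add y z _ _ hy hz => rw [add_mul, mul_add, hy, hz]
    | smul a y _ hy => rw [smul_mul_assoc, mul_smul_comm, hy]
  have hc' : N ∈ Set.center (Matrix (Fin 2) (Fin 2) (ZMod p)) := hc
  rw [Matrix.center_eq_range] at hc'
  obtain ⟨s, hs⟩ := hc'
  refine ⟨s, ?_⟩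
  rw [← CondLevel.det_rhoTors W hΔ p σ, ← LinearMap.det_toMatrix b, ← hN, ← hs,
    Matrix.scalar_apply, Matrix.det_diagonal, Fin.prod_univ_two]

/-- Twice a square is never one modulo three. -/
theorem sq_mul_two_ne_one : ∀ s : ZMod 3, s * s * 2 ≠ 1 := by decide

/-- Level lowering at `3` for the peu ramifiée shape, whatever the level. -/
theorem lower_three (W : WeierstrassCurve ℤ) (hΔ : W.Δ ≠ 0) (hirr : W.ModRepIsIrreducible 3)
    (hshape : LLp.PeuShape W 3) {N : ℕ} (hN : 0 < N) (h3N : 3 ∣ N) (h9N : ¬ 3 ^ 2 ∣ N)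
    (hmod : W.IsResiduallyModularOfLevel 3 N) : W.IsResiduallyModularOfLevel 3 (N / 3) := by
  classical
  obtain ⟨M, rfl⟩ := h3N
  rw [Nat.mul_div_cancel_left _ (by norm_num : 0 < 3)]
  by_contra hno
  have e2 : (2 : ZMod 3).val = 2 := rfl
  have : Fact (Nat.Prime 3) := ⟨Nat.prime_three⟩
  have hM : 0 < M := by omega
  have h3M : ¬ 3 ∣ M := fun h => h9N (by rw [pow_two]; exact mul_dvd_mul_left 3 h)
  -- the auxiliary prime
  obtain ⟨r, hrbig, hr, hr3⟩ := Nat.forall_exists_prime_gt_and_eq_mod (q := 3) (a := 2)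
    (isUnit_iff_ne_zero.mpr fun h => by rw [h, ZMod.val_zero] at e2; omega)
    (3 * M + W.Δ.natAbs + 4)
  have hr3' : r % 3 = 2 := by
    have h := congrArg ZMod.val hr3
    rw [ZMod.val_natCast] at h
    exact h.trans e2
  have : Fact r.Prime := ⟨hr⟩
  have : NeZero M := ⟨hM.ne'⟩
  have : NeZero r := ⟨hr.ne_zero⟩
  have : NeZero (M * r) := ⟨mul_ne_zero hM.ne' hr.ne_zero⟩
  have hrM : ¬ r ∣ M := fun h => by have := Nat.le_of_dvd hM h; omega
  have hrgood : W.IsGoodPrimeFor r := fun h => by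
    have := Nat.le_of_dvd (Int.natAbs_pos.mpr hΔ) (Int.natCast_dvd.mp h)
    omega
  have hmodr : W.IsResiduallyModularOfLevel 3 (M * r) := by
    have h := LLp.stmtLowerAtP W 3 (by norm_num) hΔ hirr hshape (3 * (M * r))
      (Nat.pos_of_ne_zero (mul_ne_zero (by norm_num) (NeZero.ne (M * r)))) (dvd_mul_right 3 _)
      (fun h => by
        rw [pow_two] at h
        rcases (Nat.Prime.dvd_mul Nat.prime_three).mp
          ((Nat.mul_dvd_mul_iff_left (by norm_num : 0 < 3)).mp h) with h | h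
        · exact h3M h
        · have := (Nat.prime_dvd_prime_iff_eq Nat.prime_three hr).mp h
          omega)
      (fun _ => ⟨r, hr, (dvd_mul_left r M).mul_left 3, hr3'⟩)
      (LL.Mazur.isResiduallyModularOfLevel_of_dvd W ⟨r, (mul_assoc 3 M r).symm⟩
        (mul_ne_zero (by norm_num) (NeZero.ne (M * r))) hmod)
    rwa [Nat.mul_div_cancel_left _ (by norm_num : 0 < 3)] at h
  -- the embedding
  obtain ⟨S₀, ι, hι⟩ := LLp.Embedding.stmtEmbedding W 3 (by norm_num) hΔ hirr (M * r) hmodr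
  set S := S₀ ∪ (M * r).primeFactors with hSdef
  have hS : ∀ q : ℕ, q.Prime → q ∣ M * r → q ∈ S := fun q hq hd => by
    simp [hSdef, hq, hd, NeZero.ne M, hr.ne_zero]
  have hMS : ∀ q : ℕ, q.Prime → q ∣ M → q ∈ S := fun q hq hd => hS q hq (hd.mul_right r)
  have heig : ∀ ℓ : Nat.Primes, (ℓ : ℕ) ∉ S → ∀ x : ECFormal.Tors W 3,
      heckeOperatorBar (M * r) ℓ (ι x) = W.apOfModel (ℓ : ℕ) • ι x := fun ℓ hℓ x =>
    hι.hecke ℓ (fun h => hℓ (by simp [hSdef, h])) x
  obtain ⟨P, hP, hPne⟩ := LL.Mazur.exists_kill_of_not_modular LLp.residualAttachment hΔ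
    (p := 3) hMS hno
  obtain ⟨l, hl, hlS, hl3, -, hlne⟩ := exists_split_prime W hΔ hirr S
  obtain ⟨A, σ, hA, hσ⟩ := Galois.exists_place_isFrobeniusAt hr
  have hunr : R59.ModUnramified W 3 r :=
    R59.modUnramified_of_good W Nat.prime_three hr (by omega) hrgood
  -- `w_r` is Frobenius inverse on `E[3]`
  have hw : ∀ x : ECFormal.Tors W 3, LL.Mazur.wJ hr hrM (ι x) = σ⁻¹ • ι x := by
    intro x
    let := heckeModuleBar (M * r)
    have hX : (3 : ℤ) • ι x = 0 := by
      rw [← map_zsmul, show (3 : ℤ) • x = 0 from Subtype.ext x.2, map_zero]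
    obtain ⟨a, ha⟩ : ∃ a : ℕ, (W.apOfModel l : ZMod 3) = a :=
      ⟨(W.apOfModel l : ZMod 3).val, (ZMod.natCast_zmod_val _).symm⟩
    obtain ⟨d, hd⟩ : (3 : ℤ) ∣ W.apOfModel l - a :=
      (ZMod.intCast_zmod_eq_zero_iff_dvd _ 3).mp (by push_cast; rw [ha, sub_self])
    have hT : heckeOperatorBar (M * r) ⟨l, hl⟩ (ι x) = a • ι x := by
      rw [heig ⟨l, hl⟩ hlS, show W.apOfModel l = (a : ℤ) + d * 3 by linarith, add_zsmul,
        mul_zsmul, hX, zsmul_zero, add_zero, natCast_zsmul]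
    obtain ⟨e, he, he'⟩ := LLp.jHecke_eq_smul_of_eigen (p := 3) (y := ι x) hX
      (fun ℓ => W.apOfModel ℓ) (fun ℓ hℓ => heig ℓ hℓ x) P
    rw [TraceFn.jHecke_apply] at he
    have h := smul_wJ_eigen hr hrM hA (by omega) (ι x) (by rw [← natCast_zsmul]; exact hX)
      (fun g hg => by
        rw [← hι.galois]
        exact congrArg ι (LinearMap.congr_fun (hunr A hA g hg) x))
      (awayIncl S P) (fun i hi h => by
        obtain ⟨j, -, rfl⟩ := Finset.mem_image.mp (MvPolynomial.vars_rename _ _ hi)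
        exact j.2 (hS _ j.1.2 h))
      (fun y => by
        rw [← TraceFn.jHecke_apply]
        exact LL.Mazur.jHecke_eq_zero_of_awayEval hMS hP y)
      ⟨l, hl⟩ (fun h => hlS (hS l hl h)) hl3 a hT (by rwa [← ha]) σ hσ
    -- the operator is a unit `k` modulo three
    set k : ℤ := e * ((a : ℤ) - (l + 1))
    have hu : awayIncl S P • (heckeOperatorBar (M * r) ⟨l, hl⟩ (ι x) - (l + 1) • ι x) =
        k • ι x := by
      rw [hT, show a • ι x - (l + 1) • ι x = ((a : ℤ) - (l + 1)) • ι x by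
          rw [sub_zsmul, natCast_zsmul, show ((l : ℤ) + 1) = ((l + 1 : ℕ) : ℤ) by
            push_cast; ring, natCast_zsmul, sub_eq_add_neg],
        ← TraceFn.jHecke_apply, map_zsmul, TraceFn.jHecke_apply, he, ← mul_zsmul,
        mul_comm ((a : ℤ) - (l + 1)) e]
    rw [hu] at h
    have hl1 : (l : ZMod 3) = 1 := by rw [← ZMod.natCast_mod, hl3, Nat.cast_one]
    have hk : (k : ZMod 3) ≠ 0 := by
      show ((e * ((a : ℤ) - (l + 1)) : ℤ) : ZMod 3) ≠ 0
      push_cast
      rw [← ha, hl1, ← he']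
      exact mul_ne_zero hPne (sub_ne_zero.mpr (fun h2 => hlne (h2.trans one_add_one_eq_two)))
    obtain ⟨u, v, huv⟩ : ∃ u v : ℤ, u * 3 + v * k = 1 :=
      Int.prime_three.coprime_iff_not_dvd.mpr
        fun h3 => hk ((ZMod.intCast_zmod_eq_zero_iff_dvd k 3).mpr h3)
    have hv : v • (k • ι x) = ι x := by
      rw [← mul_zsmul, eq_sub_of_add_eq' huv, sub_zsmul, one_zsmul, mul_zsmul, hX, zsmul_zero,
        ← sub_eq_add_neg, sub_zero]
    have hsm : ∀ z : JZero (M * r), v • (σ • z) = σ • (v • z) := fun z =>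
      (map_zsmul (DistribSMul.toAddMonoidHom (JZero (M * r)) σ) v z).symm
    have h' := congrArg (fun z => v • z) h
    simp only [← natCast_zsmul, zsmul_neg] at h'
    rw [smul_comm v (r : ℤ), hv, hsm, ← map_zsmul, hv] at h'
    have hneg : -((r : ℤ) • ι x) = ι x := by
      rw [← neg_zsmul, show -(r : ℤ) = 1 + (-((r : ℤ) / 3) - 1) * 3 by omega, add_zsmul,
        mul_zsmul, hX, zsmul_zero, one_zsmul, add_zero]
    rw [hneg] at h'
    exact eq_inv_smul_iff.mpr h'
  -- so Frobenius is central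
  have hcentral : ∀ τ : GQ,
      rhoTors W 3 σ⁻¹ * rhoTors W 3 τ = rhoTors W 3 τ * rhoTors W 3 σ⁻¹ := fun τ => by
    refine LinearMap.ext fun x => hι.inj ?_
    show ι (σ⁻¹ • τ • x) = ι (τ • σ⁻¹ • x)
    rw [hι.galois, hι.galois τ (σ⁻¹ • x), hι.galois σ⁻¹ x, ← hw, ← hw, hι.galois,
      LL.Mazur.smul_wJ]
  obtain ⟨s, hs⟩ := exists_mul_self_eq_cycChar W hΔ (p := 3) (by norm_num) hirr hcentral
  have hinv : cycChar 3 σ⁻¹ * cycChar 3 σ = 1 := by rw [← map_mul, inv_mul_cancel, map_one]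
  rw [← hs, CondLevel.cycChar_frobenius 3 hr (fun h => by
    have := (Nat.prime_dvd_prime_iff_eq hr Nat.prime_three).mp h
    omega) hA hσ, show (r : ZMod 3) = 2 by rw [← ZMod.natCast_mod, hr3']; rfl] at hinv
  exact sq_mul_two_ne_one s hinv

/-- Level lowering at `p` for the peu ramifiée shape, without condition on the level. -/
theorem lower_peuShape (W : WeierstrassCurve ℤ) (hΔ : W.Δ ≠ 0) {p : ℕ} (hp : p.Prime)
    (hp2 : p ≠ 2) (hirr : W.ModRepIsIrreducible p) (hshape : LLp.PeuShape W p) {N : ℕ}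
    (hN : 0 < N) (hpN : p ∣ N) (hp2N : ¬ p ^ 2 ∣ N) (hmod : W.IsResiduallyModularOfLevel p N) :
    W.IsResiduallyModularOfLevel p (N / p) := by
  by_cases hp3 : p = 3
  · subst hp3
    exact lower_three W hΔ hirr hshape hN hpN hp2N hmod
  · have : Fact p.Prime := ⟨hp⟩
    exact LLp.stmtLowerAtP W p hp2 hΔ hirr hshape N hN hpN hp2N (fun h => absurd h hp3) hmod

end Fermat.Agent.Extra.EllThree
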