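import Fermat.Agent.LL.Mazur.Principle
import Fermat.Agent.RED.X0Extension
import Fermat.Agent.FF.Along

/-!
# Residual divisors upstairs at level `4 M`

A unit on both branches at level `M r` with divisor divisible by `3` reduces to functions whose
orders at level `4 M` are divisible by `3`: the thickness `8` is prime to `3`.
-/

set_option autoImplicit false
set_option linter.style.haveILetI false
set_option synthInstance.maxHeartbeats 200000

noncomputable section

open AlgebraicCurve ModularCurve IsLocalRing Fermat.Agent.RED.Spec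

namespace Fermat.Agent.Extra.EllThree

local notation "Qb" => AlgebraicClosure ℚ

/-- The inclusion of the field of level `M r` in that of level `M' r`. -/
def levelIncl {M M' : ℕ} (r : ℕ) [NeZero M] [NeZero M'] [NeZero r] (h : M ∣ M') :
    modularFunctionFieldBar (M * r) →ₐ[Qb] modularFunctionFieldBar (M' * r) :=
  IntermediateField.inclusion (RED.modularFunctionFieldBar_le_of_dvd (mul_dvd_mul_right h r))

theorem coe_levelIncl {M M' : ℕ} (r : ℕ) [NeZero M] [NeZero M'] [NeZero r] (h : M ∣ M')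
    (f : modularFunctionFieldBar (M * r)) :
    (levelIncl r h f : LaurentSeries Qb) = (f : LaurentSeries Qb) := by
  rw [levelIncl]
  exact IntermediateField.coe_inclusion _ f

theorem coe_genFn {M r : ℕ} [NeZero M] [NeZero r] (d : DivIdx (M * r)) :
    (LL.Mazur.genFn d : LaurentSeries Qb) = genSer Qb d := rfl

variable {M M' r : ℕ} [NeZero M] [NeZero M'] [NeZero r] (h : M ∣ M') (hr : r.Prime)
  (hrM : ¬ r ∣ M) (hrM' : ¬ r ∣ M')

/-- The inclusion of a generator. -/
theorem levelIncl_genFn (d : DivIdx (M * r)) :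
    levelIncl r h (LL.Mazur.genFn d) =
      LL.Mazur.genFn (⟨d.1, d.2.1, d.2.2.trans (mul_dvd_mul_right h r)⟩ : DivIdx (M' * r)) := by
  refine Subtype.ext ?_
  rw [coe_levelIncl, coe_genFn, coe_genFn]
  rfl

omit [NeZero M] [NeZero M'] [NeZero r] in
include hrM hrM' in
/-- The swap does not depend on the level. -/
theorem coe_swapIdx_levelIncl (d : DivIdx (M * r)) :
    (swapIdx hr (⟨d.1, d.2.1, d.2.2.trans (mul_dvd_mul_right h r)⟩ : DivIdx (M' * r))).1 =
      (swapIdx hr d).1 := by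
  set d' : DivIdx (M' * r) := ⟨d.1, d.2.1, d.2.2.trans (mul_dvd_mul_right h r)⟩
  by_cases hd : d.1 ∣ M
  · rw [coe_swapIdx_of_dvd (N := M) hr hd,
      coe_swapIdx_of_dvd (N := M') (d := d') hr (hd.trans h)]
  · obtain ⟨e, he, -, -⟩ := exists_eq_mul_of_not_dvd hr hd
    rw [coe_swapIdx_of_mul hr hrM he, coe_swapIdx_of_mul hr hrM' (d := d') he]

/-- The inclusion commutes with `w_r`. -/
theorem wField_levelIncl (f : modularFunctionFieldBar (M * r)) :
    LL.Mazur.wField hr hrM' (levelIncl r h f) =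
      levelIncl r h (LL.Mazur.wField hr hrM f) := by
  have key : (LL.Mazur.wField hr hrM').toAlgHom.comp (levelIncl r h) =
      (levelIncl r h).comp (LL.Mazur.wField hr hrM).toAlgHom :=
    LL.Mazur.algHom_ext_genFn fun d => by
      simp only [AlgHom.comp_apply, AlgEquiv.coe_toAlgHom, levelIncl_genFn h,
        LL.Mazur.wField_genFn]
      refine congrArg _ (Subtype.ext ?_)
      exact coe_swapIdx_levelIncl h hr hrM hrM' d
  have := DFunLike.congr_fun key f
  simpa only [AlgHom.comp_apply, AlgEquiv.coe_toAlgHom,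
    AlgHom.coe_coe] using this

/-- Both expansions are unchanged by the inclusion. -/
theorem emb_levelIncl (i : Fin 2) (f : modularFunctionFieldBar (M * r)) :
    BAD.Modular.emb M' hr hrM' i (levelIncl r h f) = BAD.Modular.emb M hr hrM i f := by
  fin_cases i
  · show BAD.Modular.emb M' hr hrM' 0 _ = BAD.Modular.emb M hr hrM 0 f
    rw [BAD.Modular.emb_zero_apply, BAD.Modular.emb_zero_apply, coe_levelIncl]
  · show BAD.Modular.emb M' hr hrM' 1 _ = BAD.Modular.emb M hr hrM 1 f
    rw [LL.Mazur.emb_one_eq, LL.Mazur.emb_one_eq, wField_levelIncl h hr hrM hrM', coe_levelIncl]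

variable {A : ValuationSubring Qb} (hA : A.LiesOverPrime r)

/-- The branches and the reductions are unchanged by the inclusion. -/
theorem red_levelIncl {j : Fin 2} {g : modularFunctionFieldBar (M * r)}
    (hg : g ∈ (LL.Mazur.mCurve hr hrM hA).V j) :
    levelIncl r h g ∈ (LL.Mazur.mCurve hr hrM' hA).V j ∧
      (LL.Mazur.mCurve hr hrM' hA).red j (levelIncl r h g) = IntermediateField.inclusion
        (RED.fullC_le_of_dvd (ResidueField A) h) ((LL.Mazur.mCurve hr hrM hA).red j g) := by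
  refine LL.Mazur.red_eq_of_gRed hr hrM' hA ?_
  rw [emb_levelIncl h hr hrM hrM', IntermediateField.coe_inclusion]
  exact LL.Mazur.gRed_red hr hrM hA hg

omit h in
theorem coe_smul_galois {N : ℕ} [NeZero N] (σ : Qb ≃ₐ[ℚ] Qb) (f : modularFunctionFieldBar N) :
    ((arithmeticGalois (modularFunctionFieldFull N) σ • f : modularFunctionFieldBar N) :
      LaurentSeries Qb) = coeffMap (σ : Qb →+* Qb) (f : LaurentSeries Qb) :=
  coe_arithmeticGalois_smul _ σ f

variable [Fact r.Prime]

/-- Rational functions stay rational. -/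
theorem levelIncl_mem_mRat {g : modularFunctionFieldBar (M * r)}
    (hg : g ∈ (LL.Mazur.mRat hr hrM hA).FK) :
    levelIncl r h g ∈ (LL.Mazur.mRat hr hrM' hA).FK :=
  (LL.Mazur.mem_mRat_FK hr hrM' hA).mpr fun σ hσ => Subtype.ext <| by
    rw [coe_smul_galois, coe_levelIncl, ← coe_smul_galois,
      (LL.Mazur.mem_mRat_FK hr hrM hA).mp hg σ hσ]

/-- Values stay zero. -/
theorem levelIncl_hasOrd {j : Fin 2} {g : modularFunctionFieldBar (M * r)}
    (hg : (LL.Mazur.mRat hr hrM hA).HasOrd j g 0) :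
    (LL.Mazur.mRat hr hrM' hA).HasOrd j (levelIncl r h g) 0 := by
  obtain ⟨hgV, hg0⟩ := LLp.RatField.hasOrd_zero_iff.mp hg
  obtain ⟨hV, he⟩ := red_levelIncl h hr hrM hrM' hA hgV
  refine LLp.RatField.hasOrd_zero_iff.mpr ⟨hV, ?_⟩
  rw [he]
  exact (map_ne_zero _).mpr hg0

omit [Fact r.Prime] in
/-- Divisibility of the orders persists. -/
theorem dvd_ord_levelIncl {n : ℤ} {g : modularFunctionFieldBar (M * r)}
    (hdiv : ∀ Q : Place Qb (modularFunctionFieldBar (M * r)), n ∣ Q.ord g)
    (Q : Place Qb (modularFunctionFieldBar (M' * r))) : n ∣ Q.ord (levelIncl r h g) := by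
  haveI := MF.Coeff.isFunctionField_laurentBaseChange Qb (M * r)
  haveI := MF.Coeff.isFunctionField_laurentBaseChange Qb (M' * r)
  rw [Q.ord_restrictAlong (levelIncl r h) (FF.isIntegral_algHom _)]
  exact dvd_mul_of_dvd_right (hdiv _) _

include h hrM' in
/-- Residual orders at a multiple `M'` of `M` are divisible by `n` up to the thickness. -/
theorem dvd_thickness_mul_ord_red {t : ℕ}
    (ht : t = 12 ∨ (t = 8 ∧ ∃ q : ℕ, q.Prime ∧ q ∣ M' ∧ q % 3 = 2)) {n : ℕ}
    {g : modularFunctionFieldBar (M * r)} (hgF : g ∈ (LL.Mazur.mRat hr hrM hA).FK)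
    (hdiv : ∀ Q : Place Qb (modularFunctionFieldBar (M * r)), (n : ℤ) ∣ Q.ord g)
    (hgu : ∀ i, (LL.Mazur.mRat hr hrM hA).HasOrd i g 0) (i : Fin 2)
    (z : Place (ResidueField A) (modularFunctionFieldFullC (ResidueField A) M')) :
    (n : ℤ) ∣ t * z.ord (IntermediateField.inclusion (RED.fullC_le_of_dvd (ResidueField A) h)
      ((LL.Mazur.mCurve hr hrM hA).red i g)) := by
  haveI := Galois.place_residueField_isAlgClosed A
  haveI := MF.Coeff.isFunctionField_laurentBaseChange Qb (M' * r)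
  have ht0 : 0 < t := by rcases ht with rfl | ⟨rfl, -⟩ <;> norm_num
  obtain ⟨Z, hZF, hZ₀, hZ₁, hZfin, hZinf⟩ := LL.Mazur.exists_thickness hr hrM' hA ht
  have hF := levelIncl_mem_mRat h hr hrM hrM' hA hgF
  have hu := fun j => levelIncl_hasOrd h hr hrM hrM' hA (hgu j)
  have hd := dvd_ord_levelIncl h hdiv
  rw [← (red_levelIncl h hr hrM hrM' hA (LLp.RatField.hasOrd_zero_iff.mp (hgu i)).1).2]
  rcases z.toValuationSubring.mem_or_inv_mem (LL.Mazur.mCurve hr hrM' hA).ubar with hz | hz
  · exact LL.Mazur.dvd_ord_red_of_chart (LL.Mazur.ratChart_fin hr hrM' hA le_rfl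
      (LL.Mazur.inertiaConsts hA) fun _ => LL.Mazur.mem_inertiaConsts_iff hA) hZF
      ht0 hZ₀ hZ₁ hZfin hF hd hu i z hz
  · exact LL.Mazur.dvd_ord_red_of_chart (LL.Mazur.ratChart_inf hr hrM' hA le_rfl
      (LL.Mazur.inertiaConsts hA) fun _ => LL.Mazur.mem_inertiaConsts_iff hA) hZF
      ht0 hZ₀ hZ₁ hZinf hF hd hu i z hz

omit h hr hrM hrM' hA in
/-- At level `4 M` the residual orders are divisible by `3`. -/
theorem three_dvd_ord_red_upstairs {M r : ℕ} [NeZero M] [NeZero r] [Fact r.Prime] (hr : r.Prime)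
    (hrM : ¬ r ∣ M) (hr4 : ¬ r ∣ 4 * M) {A : ValuationSubring Qb} (hA : A.LiesOverPrime r)
    {g : modularFunctionFieldBar (M * r)}
    (hgF : g ∈ (LL.Mazur.mRat hr hrM hA).FK)
    (hdiv : ∀ Q : Place Qb (modularFunctionFieldBar (M * r)), (3 : ℤ) ∣ Q.ord g)
    (hgu : ∀ i, (LL.Mazur.mRat hr hrM hA).HasOrd i g 0) (i : Fin 2)
    (z : Place (ResidueField A) (modularFunctionFieldFullC (ResidueField A) (4 * M))) :
    (3 : ℤ) ∣ z.ord (IntermediateField.inclusion
      (RED.fullC_le_of_dvd (ResidueField A) (dvd_mul_left M 4))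
      ((LL.Mazur.mCurve hr hrM hA).red i g)) := by
  have key := dvd_thickness_mul_ord_red (dvd_mul_left M 4) hr hrM hr4 hA (t := 8) (n := 3)
    (Or.inr ⟨rfl, 2, Nat.prime_two, Dvd.dvd.mul_right ⟨2, rfl⟩ M, rfl⟩) hgF hdiv hgu i z
  exact (Int.Prime.dvd_mul' Nat.prime_three key).resolve_left (by norm_num)

end Fermat.Agent.Extra.EllThree
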