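import Fermat.Agent.Extra.LLp.HeckeElliptic
import Fermat.Agent.Extra.LLp.LevelFour
import Fermat.Agent.Extra.LLp.Upstairs
import Fermat.Agent.LL.Mazur.Principle

/-!
# Mazur's principle modulo `3` without an auxiliary prime in the level

The residual orders of the unit attached to an eigen point are divisible by `3`: the obstruction
lives at lifts of elliptic points of order three, on which `T_l - a` is `2 - a` modulo `3`.
-/

set_option autoImplicit false
set_option linter.style.haveILetI false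
set_option synthInstance.maxHeartbeats 200000

noncomputable section

open ModularCurve AlgebraicCurve IsLocalRing
open Fermat.Agent.LL.Mazur

namespace Fermat.Agent.Extra.EllThree

local notation "Qb" => AlgebraicClosure ℚ
local notation "GalQb" => AlgebraicClosure ℚ ≃ₐ[ℚ] AlgebraicClosure ℚ

section Smooth

variable {L k : Type*} [Field L] [Field k] {A : ValuationSubring L} {π : A →+* k}
  {F C : Type*} [Field F] [Algebra L F] [Field C] [Algebra k C] {D : BAD.BadBase π F C}
  {R : LLp.RatField D} {u : F} {ubar : C} {d : ℕ}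
  [IsAlgClosed L] [IsAlgClosed k] [FF.IsFunctionField L F] {h : BAD.Chart D u ubar d}

/-- At a smooth point the residual order needs no thickness. -/
theorem dvd_ord_red_of_smooth (hR : R.RatChart h) {n : ℕ} {f : F} (hf : f ∈ R.FK)
    (hdiv : ∀ P : Place L F, (n : ℤ) ∣ P.ord f) {i : Fin 2} (hfO : R.HasOrd i f 0)
    {x : Place k C} (hs : LLp.IsSmoothPt h (i, x)) : (n : ℤ) ∣ x.ord (D.red i f) := by
  obtain ⟨g, hg, hg0, hfree⟩ :=
    LLp.exists_move_smooth hR hs (p := n) hf hfO.ne_zero fun P _ => hdiv P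
  obtain ⟨a, ha⟩ := R.exists_hasOrd (i := i) hg hg0
  obtain ⟨o, e⟩ := hasOrd_mul_pow hfO ha n
  have h0 := (hfree.smooth_unit hR hs (mul_mem hf (pow_mem hg n)) o).1
  rw [e, LLp.RatField.lred_zero] at h0
  exact ⟨-x.ord (R.lred i g a), by linear_combination h0⟩

end Smooth

variable {M r : ℕ} [NeZero M] [NeZero r] (hr : r.Prime) (hrM : ¬ r ∣ M)
  {A : ValuationSubring Qb} (hA : A.LiesOverPrime r)

omit [NeZero r] in
/-- A simple zero of `j` on the special fibre lifts to a simple zero of `j`. -/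
theorem exists_redPl_eq_ord_eq_one
    (x : Place (ResidueField A) (modularFunctionFieldFullC (ResidueField A) M))
    (hx : x.ord (RED.jSpecial (k := ResidueField A) M) = 1) :
    ∃ P : Place Qb (modularFunctionFieldBar M),
      redPl hr hrM hA P = x ∧ P.ord (RED.RamBound.jPlace M) = 1 := by
  classical
  haveI := Galois.place_charP_residueField hA hr
  haveI := Galois.place_residueField_isAlgClosed A
  haveI := MF.Coeff.isFunctionField_laurentBaseChange Qb M
  have hj : RED.RamBound.jPlace M ≠ 0 := fun h =>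
    MF.Coeff.transcendental_jElem Qb M (RED.jPlace_eq_jElem.symm.trans h ▸ isAlgebraic_zero)
  haveI := RED.hasPrincipalDivisors_bar M
  obtain ⟨E, hE⟩ := RED.exists_isDivisorOf (L := Qb) hj
  have hne : RED.jSpecial (k := ResidueField A) M ≠ 0 := fun h =>
    RED.transcendental_jSpecial M (h ▸ isAlgebraic_zero)
  have hred : RED.IsDivisorOf (Finsupp.mapDomain (redPl hr hrM hA) E)
      (RED.jSpecial (k := ResidueField A) M) := mapDomain_redPl hr hrM hA hne (by
    have h := gRed_of_reduces hr hrM hA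
      ((RED.x0Red hr hrM hA).reduces_coe (RED.x0Param hr hrM hA))
    rwa [RED.coe_x0Param, RED.red_x0Param] at h) hE
  have hsum : (E.mapDomain (redPl hr hrM hA)) x = 1 := (hred x).trans hx
  by_contra hno
  push Not at hno
  refine absurd (?_ : (3 : ℤ) ∣ (E.mapDomain (redPl hr hrM hA)) x) (by rw [hsum]; norm_num)
  rw [Finsupp.mapDomain, Finsupp.sum, Finsupp.finsetSum_apply]
  refine Finset.dvd_sum fun P _ => ?_
  rw [Finsupp.single_apply]
  split_ifs with hP
  · rw [hE P]
    have hint : RED.IsIntegralPlace A (RED.RamBound.jPlace M) P := by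
      refine (RED.jSpecial_mem_x0RedPlace_iff hr hrM hA (RED.x0Lift hr hrM hA) P).mp ?_
      show RED.jSpecial M ∈ (redPl hr hrM hA P).toValuationSubring
      rw [hP]
      exact RED.mem_of_ord_nonneg x (by rw [hx]; norm_num)
    rcases (RED.ord_nonneg_of_mem P hint.1).eq_or_lt with h0 | h0
    · rw [← h0]
      exact dvd_zero _
    · have hd := RED.RamBound.ord_jPlace_sub_dvd M P 0 (by rwa [map_zero, sub_zero])
      rw [map_zero, sub_zero, RED.RamBound.ellRam_zero, show ((3 : ℕ) : ℤ) = 3 from rfl] at hd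
      have h3 : P.ord (RED.RamBound.jPlace M) ≤ 3 := Int.le_of_dvd (by norm_num) hd
      have h1 := hno P hP
      interval_cases h : P.ord (RED.RamBound.jPlace M) <;> omega
  · exact dvd_zero _

variable [Fact r.Prime]

/-- Where the residual order is not divisible by `3`, the point lifts to an elliptic point. -/
theorem exists_elliptic_lift (hr3 : 3 < r) {g : modularFunctionFieldBar (M * r)}
    (hgF : g ∈ (mRat hr hrM hA).FK)
    (hdiv : ∀ Q : Place Qb (modularFunctionFieldBar (M * r)), (3 : ℤ) ∣ Q.ord g)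
    (hgu : ∀ i, (mRat hr hrM hA).HasOrd i g 0) (i : Fin 2)
    (x : Place (ResidueField A) (modularFunctionFieldFullC (ResidueField A) M))
    (hx : ¬ (3 : ℤ) ∣ x.ord ((mCurve hr hrM hA).red i g)) :
    ∃ P : Place Qb (modularFunctionFieldBar M),
      redPl hr hrM hA P = x ∧ P.ord (RED.RamBound.jPlace M) = 1 := by
  haveI := Galois.place_residueField_isAlgClosed A
  haveI := MF.Coeff.isFunctionField_laurentBaseChange Qb (M * r)
  have hr4 : ¬ r ∣ 4 * M := fun h => (hr.dvd_mul.mp h).elim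
    (fun h4 => by
      have := Nat.le_of_dvd (by norm_num) h4
      interval_cases r
      norm_num at hr) hrM
  by_cases hj : RED.jSpecial (k := ResidueField A) M ∈ x.toValuationSubring
  · exact exists_redPl_eq_ord_eq_one hr hrM hA x (ord_jSpecial_eq_one_of_upstairs hr hr3 hr4 hA _
      (fun z => three_dvd_ord_red_upstairs hr hrM hr4 hA hgF hdiv hgu i z) x hj hx)
  · exfalso
    have hu : (mCurve hr hrM hA).ubar = RED.jSpecial (k := ResidueField A) M ^ (r + 1) :=
      Subtype.ext (by rw [BAD.Modular.coe_curve_ubar, SubmonoidClass.coe_pow, RED.coe_jSpecial])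
    have hneg : x.ord (RED.jSpecial (k := ResidueField A) M) < 0 :=
      not_le.mp fun h => hj (RED.mem_of_ord_nonneg x h)
    refine hx (dvd_ord_red_of_smooth
      (ratChart_inf hr hrM hA le_rfl (inertiaConsts hA) fun _ => mem_inertiaConsts_iff hA)
      hgF hdiv (hgu i) (LLp.isSmoothPt_curve_cusp hr hrM hA (i, x) ?_))
    show x.ord (mCurve hr hrM hA).ubar < 0
    rw [hu, ← zpow_natCast, x.ord_zpow]
    exact mul_neg_of_pos_of_neg (by positivity) hneg

omit [Fact r.Prime] in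
/-- Two class functions: the residual orders of the norm are `a` times those of the unit. -/
theorem three_dvd_ord_red_sub {y : JZero (M * r)} {g f : modularFunctionFieldBar (M * r)} {a : ℕ}
    (hg : LLp.IsClassFun 3 y g) (hf : LLp.IsClassFun 3 (a • y) f) {i : Fin 2}
    (hgu : g ∈ (mCurve hr hrM hA).V i ∧ (mCurve hr hrM hA).red i g ≠ 0)
    (hfu : f ∈ (mCurve hr hrM hA).V i ∧ (mCurve hr hrM hA).red i f ≠ 0)
    (x : Place (ResidueField A) (modularFunctionFieldFullC (ResidueField A) M)) :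
    (3 : ℤ) ∣ x.ord ((mCurve hr hrM hA).red i f) - a * x.ord ((mCurve hr hrM hA).red i g) := by
  obtain ⟨s, hs, hfs⟩ := (hg.pow a).unique (by norm_num) hf
  set D := (mCurve hr hrM hA).toTwoBranch
  obtain ⟨c, hc, hres⟩ := D.scale i s hs
  rw [← D.red_of_mem hc] at hres
  have hc0 : c ≠ 0 := fun h => hres (by rw [h, zero_smul, D.red_zero])
  have hp1 : g ^ a * (c • s) ^ 3 ∈ D.V i := mul_mem (pow_mem hgu.1 a) (pow_mem hc 3)
  have hp2 : D.red i (g ^ a * (c • s) ^ 3) = D.red i g ^ a * D.red i (c • s) ^ 3 := by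
    rw [D.red_mul (pow_mem hgu.1 a) (pow_mem hc 3), D.red_pow hgu.1, D.red_pow hc]
  have he : g ^ a * (c • s) ^ 3 = (c ^ 3) • f := by
    rw [hfs, smul_pow, mul_smul_comm]
  have hne : D.red i g ^ a * D.red i (c • s) ^ 3 ≠ 0 :=
    mul_ne_zero (pow_ne_zero _ hgu.2) (pow_ne_zero _ hres)
  have hcA : c ^ 3 ∈ A := by
    by_contra hcA
    have hn := BAD.TwoBranch.inv_mem_nonunits_of_notMem hcA
    refine hfu.2 ?_
    have h1 := D.red_smul hp1 ⟨(c ^ 3)⁻¹, A.nonunits_subset hn⟩
    rw [show ((⟨(c ^ 3)⁻¹, A.nonunits_subset hn⟩ : A) : Qb) = (c ^ 3)⁻¹ from rfl,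
      show (c ^ 3)⁻¹ • (g ^ a * (c • s) ^ 3) = f by
        rw [he, inv_smul_smul₀ (pow_ne_zero 3 hc0)],
      D.residue_eq_zero_of_nonunit _ hn, zero_smul] at h1
    exact h1
  have h2 := D.red_smul hfu.1 ⟨c ^ 3, hcA⟩
  rw [show ((⟨c ^ 3, hcA⟩ : A) : Qb) = c ^ 3 from rfl, ← he, hp2] at h2
  have hπ : residue A ⟨c ^ 3, hcA⟩ ≠ 0 := fun h0 => hne (by rw [h2, h0, zero_smul])
  have h3 := congrArg x.ord h2
  rw [Algebra.smul_def (residue A ⟨c ^ 3, hcA⟩), x.ord_mul ((_root_.map_ne_zero _).mpr hπ) hfu.2,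
    RED.ord_algebraMap', zero_add, x.ord_mul (pow_ne_zero _ hgu.2) (pow_ne_zero _ hres),
    RED.ord_pow' x hgu.2, RED.ord_pow' x hres] at h3
  exact ⟨x.ord (D.red i (c • s)), by linear_combination -h3⟩

/-- **Residual orders of an eigen point.** -/
theorem three_dvd_ord_red_eigen (hr3 : 3 < r) {y : JZero (M * r)}
    {g : modularFunctionFieldBar (M * r)} (hg : LLp.IsClassFun 3 y g)
    (hgF : g ∈ (mRat hr hrM hA).FK) (hgu : ∀ i, (mRat hr hrM hA).HasOrd i g 0)
    (l : Nat.Primes) (hl : ¬ (l : ℕ) ∣ M * r) (hl3 : (l : ℕ) % 3 = 1) (a : ℕ)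
    (ha : heckeOperatorBar (M * r) l y = a • y) (ha2 : (a : ZMod 3) ≠ 2) (i : Fin 2)
    (X : Place (ResidueField A) (modularFunctionFieldFullC (ResidueField A) M)) :
    (3 : ℤ) ∣ X.ord ((mCurve hr hrM hA).red i g) := by
  classical
  haveI := Galois.place_residueField_isAlgClosed A
  haveI := RED.isFunctionField_special M (RED.natCast_residue_ne_zero hr hrM hA)
  haveI : NeZero (l : ℕ) := ⟨l.2.ne_zero⟩
  have hlM : ¬ (l : ℕ) ∣ M := fun h => hl (h.mul_right r)
  have hlr : (l : ℕ) ≠ r := fun h => hl (h ▸ dvd_mul_left r M)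
  obtain ⟨-, D, -, hD⟩ := id hg
  have hdiv : ∀ Q : Place Qb (modularFunctionFieldBar (M * r)), (3 : ℤ) ∣ Q.ord g :=
    fun Q => ⟨_, (hD Q).symm⟩
  have hu := fun j => LLp.RatField.hasOrd_zero_iff.mp (hgu j)
  obtain ⟨hgV, hg0⟩ := hu i
  set φ := (mCurve hr hrM hA).red i g with hφ
  obtain ⟨E₀, hE₀, -⟩ := HasPrincipalDivisors.exists_divisor (K := ResidueField A) φ hg0
  have hlift : ∀ x, ∃ P : Place Qb (modularFunctionFieldBar M), redPl hr hrM hA P = x ∧
      (¬ (3 : ℤ) ∣ E₀ x → P.ord (RED.RamBound.jPlace M) = 1) := fun x => by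
    by_cases hx : (3 : ℤ) ∣ E₀ x
    · obtain ⟨P, hP⟩ := redPl_surjective hr hrM hA x
      exact ⟨P, hP, fun h => absurd hx h⟩
    · obtain ⟨P, hP, h1⟩ := exists_elliptic_lift hr hrM hA hr3 hgF hdiv hgu i x
        (by rw [← hφ, ← hE₀ x]; exact hx)
      exact ⟨P, hP, fun _ => h1⟩
  choose lift hlift hell using hlift
  have hmap : Finsupp.mapDomain (redPl hr hrM hA) (E₀.mapDomain lift) = E₀ := by
    rw [← Finsupp.mapDomain_comp, show redPl hr hrM hA ∘ lift = id from funext hlift,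
      Finsupp.mapDomain_id]
  obtain ⟨ζ, hζ⟩ := exists_primitiveRoot_units (A := A) (l := (l : ℕ)) l.2
  obtain ⟨hNV, hN0, hser⟩ := red_heckeNorm hr hrM hA l.2 hl hζ hgV hg0
  obtain ⟨χ, -, hχ, hχdiv⟩ := exists_norm_reduction hr hrM hA l.2 hlM hlr hζ (n := 1) hg0
    (E := E₀.mapDomain lift) (by rw [one_smul, hmap]; exact fun v => hE₀ v)
  have hχe : (mCurve hr hrM hA).red i (heckeNorm (M * r) l g) = χ :=
    Subtype.ext ((qExpand (ResidueField A) (l : ℕ)).injective (hser.trans hχ.symm))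
  -- the divisor of the norm is twice the one of the unit
  let Ψ := Finsupp.mapDomain.addMonoidHom (M := ℤ) (redPl hr hrM hA)
  let c := Int.castAddHom (ZMod 3)
  let T₁ : Divisor (ResidueField A) (modularFunctionFieldFullC (ResidueField A) M) →+ ZMod 3 :=
    (c.comp (Finsupp.applyAddHom X)).comp
      (Ψ.comp ((heckeDiv M l).comp (Finsupp.mapDomain.addMonoidHom lift)))
  have hT : ∀ x n, E₀ x = n → T₁ (Finsupp.single x n) =
      2 * ((Finsupp.single x n X : ℤ) : ZMod 3) := by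
    intro x n hn
    have hsingle : T₁ (Finsupp.single x n) = (n : ZMod 3) * T₁ (Finsupp.single x 1) := by
      rw [← zsmul_eq_mul, ← map_zsmul, Finsupp.smul_single, smul_eq_mul, mul_one]
    rw [hsingle]
    by_cases h3 : (3 : ℤ) ∣ n
    · have h0 : (n : ZMod 3) = 0 := (ZMod.intCast_zmod_eq_zero_iff_dvd n 3).mpr h3
      rw [h0, zero_mul, Finsupp.single_apply]
      split_ifs <;> simp [h0]
    · have hP := fun v => three_dvd_heckeDiv_single_sub (M := M) l.2 hlM hl3 (lift x)
        (hell x (hn ▸ h3)) v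
      have hd : (3 : ℤ) ∣ Ψ (heckeDiv M l (Finsupp.single (lift x) 1) -
          Finsupp.single (lift x) 2) X := by
        show (3 : ℤ) ∣ Finsupp.mapDomain _ _ X
        rw [Finsupp.mapDomain, Finsupp.sum, Finsupp.finsetSum_apply]
        refine Finset.dvd_sum fun v _ => ?_
        rw [Finsupp.single_apply]
        split_ifs
        exacts [hP v, dvd_zero _]
      have h2 := (ZMod.intCast_zmod_eq_zero_iff_dvd _ 3).mpr hd
      rw [map_sub, Finsupp.sub_apply, Int.cast_sub, sub_eq_zero] at h2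
      have h1 : T₁ (Finsupp.single x 1) =
          ((Ψ (heckeDiv M l (Finsupp.single (lift x) 1)) X : ℤ) : ZMod 3) := by
        show ((Ψ (heckeDiv M l (Finsupp.mapDomain lift (Finsupp.single x 1))) X : ℤ) : ZMod 3) =
          _
        rw [Finsupp.mapDomain_single]
      rw [h1, h2]
      show (n : ZMod 3) *
        ((Finsupp.mapDomain _ (Finsupp.single (lift x) (2 : ℤ)) X : ℤ) : ZMod 3) = _
      rw [Finsupp.mapDomain_single, hlift, Finsupp.single_apply, Finsupp.single_apply]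
      split_ifs <;> push_cast <;> ring
  have hχX : ((X.ord χ : ℤ) : ZMod 3) = 2 * ((E₀ X : ℤ) : ZMod 3) := by
    have h1 : T₁ E₀ = ((X.ord χ : ℤ) : ZMod 3) := by
      rw [← hχdiv X, one_smul]
      rfl
    rw [← h1]
    conv_lhs => rw [← E₀.sum_single]
    rw [map_finsuppSum, Finsupp.sum, Finset.sum_congr rfl fun x _ => hT x (E₀ x) rfl,
      ← Finset.mul_sum, ← Int.cast_sum, ← Finsupp.finsetSum_apply]
    exact congrArg (fun E => 2 * ((E X : ℤ) : ZMod 3)) E₀.sum_single
  have hfun : LLp.IsClassFun 3 (a • y) (heckeNorm (M * r) (l : ℕ) g) := ha ▸ hg.hecke l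
  have hd := (ZMod.intCast_zmod_eq_zero_iff_dvd _ 3).mpr
    (three_dvd_ord_red_sub hr hrM hA hg hfun ⟨hgV, hg0⟩ ⟨hNV, hN0⟩ X)
  rw [hχe, Int.cast_sub, Int.cast_mul, Int.cast_natCast, hχX, ← hφ, ← hE₀ X, ← sub_mul] at hd
  rw [← hE₀ X]
  exact (ZMod.intCast_zmod_eq_zero_iff_dvd _ 3).mp
    ((mul_eq_zero.mp hd).resolve_left (sub_ne_zero.mpr ha2.symm))

include hA in
/-- **Mazur's principle at `p = 3`.** -/
theorem smul_wJ_eigen (hr3 : 3 < r) (z : JZero (M * r)) (hz : 3 • z = 0)
    (hfix : ∀ σ ∈ A.inertiaSubgroupIn ℚ, σ • z = z)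
    (P : HeckeAlg) (hP : ∀ l ∈ MvPolynomial.vars P, ¬ ((l : Nat.Primes) : ℕ) ∣ M * r)
    (hPM : ∀ y : JZero M, (letI := heckeModuleBar M; P • y) = 0)
    (l : Nat.Primes) (hl : ¬ (l : ℕ) ∣ M * r) (hl3 : (l : ℕ) % 3 = 1) (a : ℕ)
    (ha : heckeOperatorBar (M * r) l z = a • z) (ha2 : (a : ZMod 3) ≠ 2)
    (σ : GalQb) (hσ : A.IsFrobeniusAt σ r) :
    σ • wJ hr hrM (letI := heckeModuleBar (M * r)
        P • (heckeOperatorBar (M * r) l z - ((l : ℕ) + 1) • z)) =
      -(r • (letI := heckeModuleBar (M * r)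
        P • (heckeOperatorBar (M * r) l z - ((l : ℕ) + 1) • z))) := by
  haveI : NeZero (l : ℕ) := ⟨l.2.ne_zero⟩
  haveI := Galois.place_residueField_isAlgClosed A
  haveI := MF.Coeff.isFunctionField_laurentBaseChange Qb (M * r)
  have hn : Nat.Coprime 3 r := (Nat.coprime_primes Nat.prime_three hr).mpr hr3.ne
  obtain ⟨f, hf, -, hffix⟩ := LLp.exists_fixed_classFun (n := 3) (by norm_num)
    (A.inertiaSubgroupIn ℚ) (P := z) (by rw [natCast_zsmul]; exact hz) hfix
  set R := mRat hr hrM hA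
  have hF : f ∈ R.FK := (mem_mRat_FK hr hrM hA).mpr hffix
  have hNF : heckeNorm (M * r) (l : ℕ) f ∈ R.FK := (mem_mRat_FK hr hrM hA).mpr fun s hs => by
    rw [← heckeNorm_galois, (mem_mRat_FK hr hrM hA).mp hF s hs]
  set g := heckeNorm (M * r) (l : ℕ) f * (f ^ ((l : ℕ) + 1))⁻¹
  set y := heckeOperatorBar (M * r) l z - ((l : ℕ) + 1) • z with hy
  have hg : LLp.IsClassFun 3 y g := by
    have h := (hf.hecke l).mul (hf.pow ((l : ℕ) + 1)).inv
    rwa [← sub_eq_add_neg] at h
  have hgF : g ∈ R.FK := mul_mem hNF (inv_mem (pow_mem hF _))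
  have hgu : ∀ i, R.HasOrd i g 0 := fun i => by
    obtain ⟨m, hm⟩ := R.exists_hasOrd (i := i) hF hf.1
    have h := ((hasOrd_heckeNorm hr hrM hA l.2 hl hm).mul
      (hasOrd_pow hm ((l : ℕ) + 1)).1.inv.1).1
    rwa [add_neg_cancel] at h
  have hay : heckeOperatorBar (M * r) l y = a • y := by
    rw [hy, map_sub, map_nsmul, ha, map_nsmul, ha, nsmul_sub,
      ← mul_nsmul', ← mul_nsmul', ← mul_nsmul', mul_comm ((l : ℕ) + 1)]
  obtain ⟨x, hx⟩ := exists_resRep (hr := hr) (hrM := hrM) (hA := hA) (n := 3) (by norm_num) hg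
    (fun i => LLp.RatField.hasOrd_zero_iff.mp (hgu i))
    fun i X => three_dvd_ord_red_eigen hr hrM hA hr3 hg hgF hgu l hl hl3 a hay ha2 i X
  have hPx := hx.smul hr hrM hA hP
  simp only [hPM] at hPx
  obtain ⟨f', hf', hred⟩ := hPx.exists_redIsPow
  exact smul_wJ_eq_of_redIsPow hr hrM hA hσ hn hf' hred

end Fermat.Agent.Extra.EllThree
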